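import Fermat.Agent.ECF.Par

/-! # The function field of an elliptic curve, its generic point and their universal property -/

set_option autoImplicit false

namespace Fermat.Agent.ECF

open Polynomial WeierstrassCurve WeierstrassCurve.Affine
open scoped Polynomial.Bivariate
open Fermat.Agent.S05 (xc yc)

noncomputable section

variable {k : Type*} [Field k] (W : WeierstrassCurve k)

/-- the function field of `W` -/
abbrev KE : Type _ := W.toAffine.FunctionField

instance : DecidableEq (KE W) := Classical.decEq _

variable {K : Type*} [Field K] [Algebra k K]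

instance isElliptic_baseChange [W.IsElliptic] : (W⁄K).IsElliptic :=
  inferInstanceAs (W.map (algebraMap k K)).IsElliptic

theorem eval₂_polynomial (x y : K) :
    W.toAffine.polynomial.eval₂ (aeval x : k[X] →ₐ[k] K).toRingHom y =
      y ^ 2 + algebraMap k K W.a₁ * x * y + algebraMap k K W.a₃ * y -
        (x ^ 3 + algebraMap k K W.a₂ * x ^ 2 + algebraMap k K W.a₄ * x + algebraMap k K W.a₆) := by
  simp only [Affine.polynomial, eval₂_sub, eval₂_add, eval₂_mul, eval₂_pow, eval₂_X, eval₂_C,
    AlgHom.toRingHom_eq_coe, RingHom.coe_coe, map_add, map_mul, map_pow, aeval_X, aeval_C]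
  ring

theorem equation_baseChange_iff (x y : K) : (W⁄K).toAffine.Equation x y ↔
    y ^ 2 + algebraMap k K W.a₁ * x * y + algebraMap k K W.a₃ * y =
        x ^ 3 + algebraMap k K W.a₂ * x ^ 2 + algebraMap k K W.a₄ * x + algebraMap k K W.a₆ := by
  rw [Affine.equation_iff]
  simp only [WeierstrassCurve.baseChange, map_a₁, map_a₂, map_a₃, map_a₄, map_a₆]

/-- evaluation of the coordinate ring at a point with coordinates in `K` -/
def evalCR (x y : K) (h : (W⁄K).toAffine.Equation x y) : W.toAffine.CoordinateRing →ₐ[k] K :=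
  AdjoinRoot.liftAlgHom W.toAffine.polynomial (aeval x : k[X] →ₐ[k] K) y (by
    have h1 := (Affine.equation_iff _ _).mp h
    have := eval₂_polynomial W x y
    simp only [AlgHom.toRingHom_eq_coe] at this
    rw [this]
    simp only [WeierstrassCurve.baseChange, map_a₁, map_a₂, map_a₃, map_a₄, map_a₆] at h1
    rw [h1, sub_self])

variable {W}

theorem evalCR_mk_C (x y : K) (h : (W⁄K).toAffine.Equation x y) (p : k[X]) :
    evalCR W x y h (CoordinateRing.mk W (C p)) = aeval x p := by
  rw [evalCR, CoordinateRing.mk, AdjoinRoot.liftAlgHom_mk, eval₂_C]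
  rfl

theorem evalCR_mk_Y (x y : K) (h : (W⁄K).toAffine.Equation x y) :
    evalCR W x y h (CoordinateRing.mk W Y) = y := by
  rw [evalCR, CoordinateRing.mk, AdjoinRoot.liftAlgHom_mk, eval₂_X]

theorem evalCR_smul_basis (x y : K) (h : (W⁄K).toAffine.Equation x y) (p q : k[X]) :
    evalCR W x y h (p • (1 : W.toAffine.CoordinateRing) + q • CoordinateRing.mk W Y) =
      aeval x p + aeval x q * y := by
  rw [CoordinateRing.smul, CoordinateRing.smul, map_add, map_mul, map_mul, evalCR_mk_C, evalCR_mk_C,
    evalCR_mk_Y, map_one, mul_one]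

theorem evalCR_injective (x y : K) (h : (W⁄K).toAffine.Equation x y) (hx : Transcendental k x) :
    Function.Injective (evalCR W x y h) := by
  rw [injective_iff_map_eq_zero]
  intro z hz
  obtain ⟨p, q, rfl⟩ := CoordinateRing.exists_smul_basis_eq z
  rw [evalCR_smul_basis] at hz
  have he := (equation_baseChange_iff W x y).mp h
  have h2 : aeval x (Algebra.norm k[X]
      (p • (1 : W.toAffine.CoordinateRing) + q • CoordinateRing.mk W Y)) = 0 := by
    rw [CoordinateRing.norm_smul_basis]
    simp only [map_sub, map_mul, map_pow, map_add, aeval_X, aeval_C]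
    linear_combination (aeval x p + aeval x q * (-y - algebraMap k K W.a₁ * x - algebraMap k K W.a₃)) * hz
      + (aeval x q) ^ 2 * he
  have h3 := (transcendental_iff_injective.mp hx) (h2.trans (map_zero _).symm)
  have h4 := CoordinateRing.degree_norm_smul_basis (W' := W.toAffine) p q
  rw [h3, degree_zero] at h4
  have h5 : 2 • p.degree = ⊥ := by
    have := le_max_left (2 • p.degree) (2 • q.degree + 3)
    rw [← h4] at this
    exact le_bot_iff.mp this
  have h6 : 2 • q.degree + 3 = ⊥ := by
    have := le_max_right (2 • p.degree) (2 • q.degree + 3)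
    rw [← h4] at this
    exact le_bot_iff.mp this
  have hp : p = 0 := by
    by_contra hp
    rw [degree_eq_natDegree hp] at h5
    exact absurd h5 (by exact WithBot.coe_ne_bot)
  have hq : q = 0 := by
    by_contra hq
    rw [degree_eq_natDegree hq] at h6
    exact absurd h6 (by exact WithBot.coe_ne_bot)
  rw [hp, hq, zero_smul, zero_smul, add_zero]


/-- evaluation of the function field at a point with transcendental `x`-coordinate -/
def evalKE (x y : K) (h : (W⁄K).toAffine.Equation x y) (hx : Transcendental k x) :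
    KE W →ₐ[k] K :=
  IsFractionRing.liftAlgHom (g := evalCR W x y h) (evalCR_injective x y h hx)

theorem evalKE_algebraMap (x y : K) (h : (W⁄K).toAffine.Equation x y) (hx : Transcendental k x)
    (z : W.toAffine.CoordinateRing) :
    evalKE x y h hx (algebraMap W.toAffine.CoordinateRing (KE W) z) = evalCR W x y h z := by
  rw [evalKE, IsFractionRing.liftAlgHom_apply]
  exact IsFractionRing.lift_algebraMap _ _

variable (W)

/-- the coordinate function `x` -/
def tE : KE W := algebraMap W.toAffine.CoordinateRing (KE W) (CoordinateRing.mk W (C X))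

/-- the coordinate function `y` -/
def yE : KE W := algebraMap W.toAffine.CoordinateRing (KE W) (CoordinateRing.mk W Y)

theorem aeval_tE (p : k[X]) :
    aeval (tE W) p = algebraMap W.toAffine.CoordinateRing (KE W) (CoordinateRing.mk W (C p)) := by
  induction p using Polynomial.induction_on' with
  | add p q hp hq => rw [map_add, hp, hq, C_add, map_add, map_add]
  | monomial n a =>
    rw [aeval_monomial, tE, ← map_pow, ← map_pow, ← C_pow, ← C_mul_X_pow_eq_monomial, C_mul, map_mul,
      map_mul]
    rfl

theorem transcendental_tE : Transcendental k (tE W) := by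
  rw [transcendental_iff_injective, injective_iff_map_eq_zero]
  intro p hp
  rw [aeval_tE] at hp
  have h1 := (IsFractionRing.injective W.toAffine.CoordinateRing (KE W)) (hp.trans (map_zero _).symm)
  have h2 : p • (1 : W.toAffine.CoordinateRing) + (0 : k[X]) • CoordinateRing.mk W Y = 0 := by
    rw [CoordinateRing.smul, mul_one, zero_smul, add_zero, h1]
  exact (CoordinateRing.smul_basis_eq_zero h2).1

theorem equation_gen : (W⁄(KE W)).toAffine.Equation (tE W) (yE W) := by
  rw [equation_baseChange_iff]
  have Y_sq : CoordinateRing.mk W Y ^ 2 =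
      CoordinateRing.mk W (C (X ^ 3 + C W.a₂ * X ^ 2 + C W.a₄ * X + C W.a₆) -
      C (C W.a₁ * X + C W.a₃) * Y) :=
    AdjoinRoot.mk_eq_mk.mpr ⟨1, by rw [Affine.polynomial]; ring1⟩
  have h1 := congrArg (algebraMap W.toAffine.CoordinateRing (KE W)) Y_sq
  rw [map_pow, map_sub, map_sub, map_mul, map_mul, ← aeval_tE, ← aeval_tE] at h1
  simp only [map_add, map_mul, map_pow, aeval_X, aeval_C] at h1
  change yE W ^ 2 = _ - _ * yE W at h1
  linear_combination h1

variable [W.IsElliptic]

/-- the generic point -/
def gen : (W⁄(KE W)).toAffine.Point :=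
  Point.some (tE W) (yE W) ((equation_iff_nonsingular (W := (W⁄(KE W)).toAffine)).mp (equation_gen W))

theorem gen_ne_zero : gen W ≠ 0 := Point.some_ne_zero _

theorem xc_gen : xc (gen W) = tE W := rfl

theorem yc_gen : yc (gen W) = yE W := rfl

variable {W} [DecidableEq K]

omit [W.IsElliptic] in
theorem xc_map {K' : Type*} [Field K'] [Algebra k K'] [DecidableEq K'] (σ : K →ₐ[k] K') (P : (W⁄K).toAffine.Point) :
    xc (Point.map σ P) = σ (xc P) := by
  cases P with
  | zero => exact (map_zero σ).symm
  | some x y h => rfl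

omit [W.IsElliptic] in
theorem yc_map {K' : Type*} [Field K'] [Algebra k K'] [DecidableEq K'] (σ : K →ₐ[k] K') (P : (W⁄K).toAffine.Point) :
    yc (Point.map σ P) = σ (yc P) := by
  cases P with
  | zero => exact (map_zero σ).symm
  | some x y h => rfl

/-- **Universal property of the generic point.** -/
theorem exists_algHom (R : (W⁄K).toAffine.Point) (hR : R ≠ 0) (hx : Transcendental k (xc R)) :
    ∃ σ : KE W →ₐ[k] K, Point.map σ (gen W) = R := by
  cases R with
  | zero => exact absurd rfl hR
  | some x y h =>
    have he : (W⁄K).toAffine.Equation x y := h.1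
    have hx' : Transcendental k x := hx
    refine ⟨evalKE x y he hx', ?_⟩
    rw [gen, Point.map_some]
    have h1 : evalKE x y he hx' (tE W) = x := by
      rw [tE, evalKE_algebraMap, evalCR_mk_C, aeval_X]
    have h2 : evalKE x y he hx' (yE W) = y := by
      rw [yE, evalKE_algebraMap, evalCR_mk_Y]
    simp only [h1, h2]

theorem algHom_ext_gen {σ τ : KE W →ₐ[k] K} (h : Point.map σ (gen W) = Point.map τ (gen W)) :
    σ = τ := by
  have hx : σ (tE W) = τ (tE W) := by
    have := congrArg xc h
    rwa [xc_map, xc_map] at this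
  have hy : σ (yE W) = τ (yE W) := by
    have := congrArg yc h
    rwa [yc_map, yc_map] at this
  have hp : ∀ p : k[X], σ (aeval (tE W) p) = τ (aeval (tE W) p) := by
    intro p
    rw [← aeval_algHom_apply, ← aeval_algHom_apply, hx]
  apply IsLocalization.algHom_ext (nonZeroDivisors W.toAffine.CoordinateRing)
  refine AlgHom.ext fun z => ?_
  obtain ⟨p, q, rfl⟩ := CoordinateRing.exists_smul_basis_eq z
  change σ (algebraMap W.toAffine.CoordinateRing (KE W) _) =
    τ (algebraMap W.toAffine.CoordinateRing (KE W) _)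
  simp only [CoordinateRing.smul, map_add, map_mul, map_one]
  rw [← aeval_tE, ← aeval_tE, hp, hp]
  change _ + _ * σ (yE W) = _ + _ * τ (yE W)
  rw [hy]


variable (W)

/-- the hyperelliptic involution of the function field -/
def invo : KE W →ₐ[k] KE W :=
  (exists_algHom (-gen W) (neg_ne_zero.mpr (gen_ne_zero W))
    (by rw [Fermat.Agent.S05.xc_neg]; exact transcendental_tE W)).choose

theorem map_invo_gen : Point.map (invo W) (gen W) = -gen W :=
  (exists_algHom (-gen W) (neg_ne_zero.mpr (gen_ne_zero W))
    (by rw [Fermat.Agent.S05.xc_neg]; exact transcendental_tE W)).choose_spec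

/-- the group of odd points (= endomorphisms) -/
def Odd : AddSubgroup (W⁄(KE W)).toAffine.Point :=
  (Point.map (invo W) + AddMonoidHom.id _).ker

variable {W}

theorem mem_Odd {P : (W⁄(KE W)).toAffine.Point} : P ∈ Odd W ↔ Point.map (invo W) P = -P := by
  rw [Odd, AddMonoidHom.mem_ker, AddMonoidHom.add_apply, AddMonoidHom.id_apply,
    add_eq_zero_iff_eq_neg]

theorem gen_mem_Odd : gen W ∈ Odd W := mem_Odd.mpr (map_invo_gen W)

theorem invo_tE : invo W (tE W) = tE W := by
  have := congrArg xc (map_invo_gen W)
  rwa [xc_map, Fermat.Agent.S05.xc_neg] at this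

theorem invo_yE : invo W (yE W) =
    -yE W - algebraMap k (KE W) W.a₁ * tE W - algebraMap k (KE W) W.a₃ := by
  have := congrArg yc (map_invo_gen W)
  rw [yc_map, Fermat.Agent.S05.yc_neg (gen_ne_zero W)] at this
  rw [yc_gen] at this
  rw [this, xc_gen, Affine.negY]
  simp only [WeierstrassCurve.baseChange, map_a₁, map_a₃]

theorem invo_aeval (p : k[X]) : invo W (aeval (tE W) p) = aeval (tE W) p := by
  rw [← aeval_algHom_apply, invo_tE]

/-- `2 y + a₁ x + a₃ ≠ 0` in the function field -/
theorem psi2_gen_ne_zero :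
    2 * yE W + algebraMap k (KE W) W.a₁ * tE W + algebraMap k (KE W) W.a₃ ≠ 0 := by
  intro h
  have h1 : algebraMap W.toAffine.CoordinateRing (KE W)
      ((C W.a₁ * X + C W.a₃ : k[X]) • (1 : W.toAffine.CoordinateRing) +
        (2 : k[X]) • CoordinateRing.mk W Y) = 0 := by
    rw [CoordinateRing.smul, CoordinateRing.smul, map_add, map_mul, map_mul, ← aeval_tE, ← aeval_tE,
      map_one, mul_one]
    simp only [map_add, map_mul, aeval_X, aeval_C, map_ofNat]
    change _ + 2 * yE W = 0
    linear_combination h
  have h2 := (IsFractionRing.injective W.toAffine.CoordinateRing (KE W)) (h1.trans (map_zero _).symm)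
  obtain ⟨h3, h4⟩ := CoordinateRing.smul_basis_eq_zero h2
  have h5 : (2 : k) = 0 := by
    have := congrArg (fun p : k[X] => p.coeff 0) h4
    simpa using this
  have h6 : W.a₁ = 0 := by
    have := congrArg (fun p : k[X] => p.coeff 1) h3
    simpa using this
  have h7 : W.a₃ = 0 := by
    have := congrArg (fun p : k[X] => p.coeff 0) h3
    simpa using this
  apply W.isUnit_Δ.ne_zero
  rw [WeierstrassCurve.Δ, WeierstrassCurve.b₂, WeierstrassCurve.b₄, WeierstrassCurve.b₆,
    WeierstrassCurve.b₈, h6, h7]
  linear_combination (-8 * W.a₂ ^ 2 * (4 * W.a₂ * W.a₆ - W.a₄ ^ 2) - 32 * W.a₄ ^ 3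
    - 216 * W.a₆ ^ 2 + 144 * W.a₂ * W.a₄ * W.a₆) * h5

/-- elements of the function field fixed by the involution are rational functions of `t` -/
theorem exists_of_invo_eq {z : KE W} (hz : invo W z = z) :
    ∃ b a : k[X], a ≠ 0 ∧ z * aeval (tE W) a = aeval (tE W) b := by
  obtain ⟨u, v, hv, rfl⟩ := IsFractionRing.div_surjective (A := W.toAffine.CoordinateRing) z
  have hv0 : v ≠ 0 := nonZeroDivisors.ne_zero hv
  obtain ⟨p, q, rfl⟩ := CoordinateRing.exists_smul_basis_eq u
  obtain ⟨r, s, rfl⟩ := CoordinateRing.exists_smul_basis_eq v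
  have hb : ∀ p q : k[X], algebraMap W.toAffine.CoordinateRing (KE W)
      (p • (1 : W.toAffine.CoordinateRing) + q • CoordinateRing.mk W Y) =
        aeval (tE W) p + aeval (tE W) q * yE W := by
    intro p q
    rw [CoordinateRing.smul, CoordinateRing.smul, map_add, map_mul, map_mul, ← aeval_tE, ← aeval_tE,
      map_one, mul_one]
    rfl
  rw [hb, hb] at hz ⊢
  have hv1 : aeval (tE W) r + aeval (tE W) s * yE W ≠ 0 := by
    rw [← hb]
    intro h
    exact hv0 ((IsFractionRing.injective W.toAffine.CoordinateRing (KE W)) (h.trans (map_zero _).symm))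
  have hv2 : invo W (aeval (tE W) r + aeval (tE W) s * yE W) ≠ 0 := by
    intro h
    exact hv1 ((invo W).toRingHom.injective (h.trans (map_zero _).symm))
  rw [map_div₀, div_eq_div_iff hv2 hv1] at hz
  simp only [map_add, map_mul, invo_aeval, invo_yE] at hz hv2
  have hPS : aeval (tE W) p * aeval (tE W) s = aeval (tE W) q * aeval (tE W) r := by
    apply mul_right_cancel₀ (psi2_gen_ne_zero (W := W))
    linear_combination hz
  by_cases hs : s = 0
  · have hr : r ≠ 0 := by
      rintro rfl
      apply hv0
      rw [hs, zero_smul, zero_smul, add_zero]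
    refine ⟨p, r, hr, ?_⟩
    rw [div_mul_eq_mul_div, div_eq_iff hv1]
    linear_combination (-yE W) * hPS
  · refine ⟨q, s, hs, ?_⟩
    rw [div_mul_eq_mul_div, div_eq_iff hv1]
    linear_combination hPS

theorem hasRep_of_mem_Odd {P : (W⁄(KE W)).toAffine.Point} (hP : P ∈ Odd W) :
    HasRep (tE W) P := by
  rw [mem_Odd] at hP
  have h1 := congrArg xc hP
  rw [xc_map, Fermat.Agent.S05.xc_neg] at h1
  obtain ⟨b, a, ha, h⟩ := exists_of_invo_eq h1
  exact hasRep_of_eq (transcendental_tE W) ha h

theorem map_mem_Odd (σ : KE W →ₐ[k] KE W) (hσ : Point.map σ (gen W) ∈ Odd W)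
    {P : (W⁄(KE W)).toAffine.Point} (hP : P ∈ Odd W) : Point.map σ P ∈ Odd W := by
  rw [mem_Odd] at hσ hP ⊢
  have hcomm : (invo W).comp σ = σ.comp (invo W) := by
    apply algHom_ext_gen
    rw [← Point.map_map, ← Point.map_map, hσ, map_invo_gen, map_neg]
  rw [Point.map_map, hcomm, ← Point.map_map, hP, map_neg]

end
end Fermat.Agent.ECF
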