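import Fermat.Agent.ECF.Par
import Fermat.Agent.ECF.FunField
import Fermat.Agent.HW.RatDegComp

/-! # Composition: multiplicativity of the height (WP ECF-Comp) -/

set_option autoImplicit false

namespace Fermat.Agent.ECF

open Polynomial WeierstrassCurve WeierstrassCurve.Affine
open Fermat.Agent.S05 (xc yc)

noncomputable section

variable {k : Type*} [Field k] {W : WeierstrassCurve k}

section Comp

/-- degree of a rational function -/
def rdeg (r : RatFunc k) : ℕ := max r.num.natDegree r.denom.natDegree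

theorem CompAux.rdeg_eq_HW (r : RatFunc k) : rdeg r = Fermat.Agent.HW.rdeg r := rfl

/-- an algebra hom out of `k(X)` is evaluation at the image of `X` -/
theorem CompAux.algHom_ratFunc_apply {L : Type*} [Field L] [Algebra k L] (c : RatFunc k →ₐ[k] L)
    (r : RatFunc k) : c r = aeval (c RatFunc.X) r.num / aeval (c RatFunc.X) r.denom := by
  have h : ∀ p : k[X], c (algebraMap k[X] (RatFunc k) p) = aeval (c RatFunc.X) p := by
    intro p
    rw [aeval_algHom_apply, RatFunc.aeval_X_left_eq_algebraMap]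
  conv_lhs => rw [← RatFunc.num_div_denom r]
  rw [map_div₀, h, h]

theorem rdeg_comp (c : RatFunc k →ₐ[k] RatFunc k) (r : RatFunc k) :
    rdeg (c r) = rdeg (c RatFunc.X) * rdeg r := by
  rw [CompAux.algHom_ratFunc_apply c r, CompAux.rdeg_eq_HW,
    Fermat.Agent.HW.rdeg_comp r.denom_ne_zero r.isCoprime_num_denom, mul_comm]
  rfl

variable [W.IsElliptic]

theorem ht_gen : ht (tE W) (gen W) = 1 := by
  have h : Rep (tE W) (gen W) X 1 :=
    ⟨isCoprime_one_right, Or.inr ⟨gen_ne_zero W, one_ne_zero, by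
      rw [xc_gen, map_one, mul_one, aeval_X]⟩⟩
  rw [ht_eq (transcendental_tE W) h, pdeg, natDegree_X, natDegree_one]
  rfl

/-- the embedding `k(X) → K`, `X ↦ t` -/
def CompAux.ratEmb {K : Type*} [Field K] [Algebra k K] {t : K} (ht : Transcendental k t) :
    RatFunc k →ₐ[k] K :=
  IsFractionRing.liftAlgHom (g := (aeval t : k[X] →ₐ[k] K))
    (transcendental_iff_injective.mp ht)

theorem CompAux.ratEmb_algebraMap {K : Type*} [Field K] [Algebra k K] {t : K} (ht : Transcendental k t)
    (p : k[X]) : CompAux.ratEmb ht (algebraMap k[X] (RatFunc k) p) = aeval t p := by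
  simp [CompAux.ratEmb, IsFractionRing.liftAlgHom_apply]

/-- **Multiplicativity of the height under composition.** -/
theorem ht_map (σ : KE W →ₐ[k] KE W) (hσ : Point.map σ (gen W) ∈ Odd W)
    {P : (W⁄(KE W)).toAffine.Point} (hP : P ∈ Odd W) :
    ht (tE W) (Point.map σ P) = ht (tE W) (Point.map σ (gen W)) * ht (tE W) P := by
  have htr := transcendental_tE W
  have hinj : Function.Injective (aeval (tE W) : k[X] →ₐ[k] KE W) :=
    transcendental_iff_injective.mp htr
  obtain ⟨b, a, hba⟩ := hasRep_of_mem_Odd hP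
  obtain ⟨d, e, hde⟩ := hasRep_of_mem_Odd hσ
  rw [ht_eq htr hba, ht_eq htr hde]
  obtain ⟨hcop, h | ⟨hP0, ha0, hx⟩⟩ := hba
  · -- `P = 0`
    obtain ⟨rfl, rfl⟩ := h
    have hb : b.natDegree = 0 := natDegree_eq_zero_of_isUnit (isCoprime_zero_right.mp hcop)
    have h0 : pdeg b 0 = 0 := by rw [pdeg, hb, natDegree_zero, max_self]
    rw [map_zero, ht_zero htr, h0, mul_zero]
  obtain ⟨hcop', h | ⟨-, he0, hs⟩⟩ := hde
  · exfalso
    exact gen_ne_zero W (Point.map_injective (W' := W) σ (by rw [h.1, map_zero]))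
  rw [xc_map, xc_gen] at hs
  -- the rational function `S` with `σ t = S(t)`
  set ι := CompAux.ratEmb htr with hι
  set S : RatFunc k := algebraMap k[X] (RatFunc k) d / algebraMap k[X] (RatFunc k) e with hS
  have het : aeval (tE W) e ≠ 0 := fun h => he0 (hinj (by rw [h, map_zero]))
  have hιS : ι S = σ (tE W) := by
    rw [hS, map_div₀, hι, CompAux.ratEmb_algebraMap, CompAux.ratEmb_algebraMap, div_eq_iff het, hs]
  set r : RatFunc k := aeval S b / aeval S a with hr
  have hat : aeval (tE W) a ≠ 0 := fun h => ha0 (hinj (by rw [h, map_zero]))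
  have hσa : aeval (σ (tE W)) a ≠ 0 := by
    rw [aeval_algHom_apply]
    exact fun h => hat (σ.toRingHom.injective (by simpa using h))
  have hιr : ι r = xc (Point.map σ P) := by
    rw [hr, map_div₀, ← aeval_algHom_apply, ← aeval_algHom_apply, hιS, xc_map,
      div_eq_iff hσa, aeval_algHom_apply, aeval_algHom_apply, ← map_mul, hx]
  have hrep : Rep (tE W) (Point.map σ P) r.num r.denom := by
    refine ⟨r.isCoprime_num_denom, Or.inr ⟨fun h => hP0 (Point.map_injective (W' := W) σ
      (by rw [h, map_zero])), r.denom_ne_zero, ?_⟩⟩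
    have hden : aeval (tE W) r.denom ≠ 0 := fun h => r.denom_ne_zero (hinj (by rw [h, map_zero]))
    rw [← hιr, ← eq_div_iff hden, ← CompAux.ratEmb_algebraMap htr, ← CompAux.ratEmb_algebraMap htr, ← map_div₀,
      RatFunc.num_div_denom]
  rw [ht_eq htr hrep]
  have h1 : pdeg r.num r.denom = Fermat.Agent.HW.rdeg r := rfl
  rw [h1, hr, Fermat.Agent.HW.rdeg_comp ha0 hcop, hS, Fermat.Agent.HW.rdeg_div he0 hcop', mul_comm]
  rfl

end Comp

end

end Fermat.Agent.ECF
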