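import Fermat.Agent.ECF.CountDefs

/-! # Manin's count: the number of points (WP ECF-CountB)

`#E(k) = 1 + Σ_c #{y | y² + a₁ c y + a₃ y = c³ + a₂ c² + a₄ c + a₆} = 1 + Σ_c #{η | η² = D(c)}`
(`η = 2 y + a₁ c + a₃`, a bijection as `2 ≠ 0`), and `#{η | η² = d}` is `2, 0, 1` according to
`d^e = 1, -1`, `d = 0` (Euler's criterion `FiniteField.isSquare_iff`, `FiniteField.pow_dichotomy`).
All solutions of the equation are nonsingular (`equation_iff_nonsingular`, `[W.IsElliptic]`). -/

set_option autoImplicit false

namespace Fermat.Agent.ECF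

open Polynomial WeierstrassCurve WeierstrassCurve.Affine

noncomputable section

variable {k : Type*} [Field k] [Fintype k] (W : WeierstrassCurve k) [W.IsElliptic]

theorem card_point (h2 : (2 : k) ≠ 0) :
    Nat.card W.toAffine.Point = 1 + 2 * (Sp W).card + (Sz W).card := by
  sorry

end

end Fermat.Agent.ECF
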