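import Fermat.Agent.ECF.CountDefs

/-! # Manin's count: the formula for `x(Φ G - G)` (WP ECF-CountC)

`η = 2 y + a₁ t + a₃`, `η² = D(t)` (`S05.psi2_sq`).  `Φ G = (t^q, y^q)`, `-G = (t, -y - a₁ t - a₃)`,
`t^q ≠ t` by transcendence, so `Φ G - G = Φ G + (-G)` is given by the chord formula
(`Point.add_of_X_ne`, `addX`, `slope_of_X_ne`): with `λ` the slope,
`4 x + b₂ = (2 λ + a₁)² - 4 (t^q + t)` and `2 λ + a₁ = (η^q + η) / (t^q - t)`,
`η^q + η = η (D(t)^e + 1)`.  Hence
`4 (t^q - t)² x(Φ G - G) = D (D^e + 1)² - (4 t^q + 4 t + b₂) (t^q - t)²`. -/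

set_option autoImplicit false

namespace Fermat.Agent.ECF

open Polynomial WeierstrassCurve WeierstrassCurve.Affine
open Fermat.Agent.S05 (xc yc)

noncomputable section

variable {k : Type*} [Field k] [Fintype k] (W : WeierstrassCurve k) [W.IsElliptic]

theorem frob_sub_gen_ne_zero : frobPt W (KE W) (gen W) - gen W ≠ 0 := by
  sorry

theorem xc_frob_sub_gen (h2 : (2 : k) ≠ 0) :
    xc (frobPt W (KE W) (gen W) - gen W) * aeval (tE W) (Mp k) = aeval (tE W) (Np W) := by
  sorry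

end

end Fermat.Agent.ECF
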