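import Fermat.Agent.ECF.CountPoly
import Fermat.Agent.ECF.CountCard
import Fermat.Agent.ECF.CountFormula

/-! # Manin's count: `ht (Φ G - G) = #E(k)` (assembly) -/

set_option autoImplicit false

namespace Fermat.Agent.ECF

open Polynomial WeierstrassCurve WeierstrassCurve.Affine
open Fermat.Agent.S05 (xc yc)

noncomputable section

variable {k : Type*} [Field k] [Fintype k] {W : WeierstrassCurve k} [W.IsElliptic]

theorem Mp_ne_zero (h2 : (2 : k) ≠ 0) : Mp k ≠ 0 := by
  have h4 : (4 : k) ≠ 0 := by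
    have : (4 : k) = 2 * 2 := by norm_num
    rw [this]; exact mul_ne_zero h2 h2
  have hq : 1 < Fintype.card k := Fintype.one_lt_card
  refine mul_ne_zero (C_ne_zero.mpr h4) (pow_ne_zero _ (FiniteField.X_pow_card_sub_X_ne_zero k hq))

theorem ht_frob_sub_gen (h2 : (2 : k) ≠ 0) :
    ht (tE W) (frobPt W (KE W) (gen W) - gen W) = Nat.card W.toAffine.Point := by
  obtain ⟨N', M', hcop, hM', hNM, hdeg⟩ := exists_reduced W h2 W.isUnit_Δ.ne_zero
  rw [card_point W h2, ← hdeg]
  refine ht_eq (transcendental_tE W) ⟨hcop, Or.inr ⟨frob_sub_gen_ne_zero W, hM', ?_⟩⟩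
  have hinj := (transcendental_iff_injective.mp (transcendental_tE W))
  have h0 : aeval (tE W) (Mp k) ≠ 0 := by
    intro h
    exact Mp_ne_zero h2 (hinj (by rw [h, map_zero]))
  apply mul_right_cancel₀ h0
  have h1 := xc_frob_sub_gen W h2
  have h3 := congrArg (aeval (tE W)) hNM
  rw [map_mul, map_mul] at h3
  rw [← h3, ← h1]
  ring

end

end Fermat.Agent.ECF
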