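import Fermat.Agent.ECF.Frob

/-! # Manin's count: definitions

`q = card k` odd, `e = (q - 1) / 2`, `D = 4 X³ + b₂ X² + 2 b₄ X + b₆`. -/

set_option autoImplicit false

namespace Fermat.Agent.ECF

open Polynomial WeierstrassCurve WeierstrassCurve.Affine

noncomputable section

variable {k : Type*} [Field k] [Fintype k] (W : WeierstrassCurve k)

/-- `D = 4 X³ + b₂ X² + 2 b₄ X + b₆` -/
def Dp : k[X] := C 4 * X ^ 3 + C W.b₂ * X ^ 2 + C (2 * W.b₄) * X + C W.b₆

variable (k) in
/-- `e = (q - 1) / 2` -/
def eE : ℕ := (Fintype.card k - 1) / 2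

/-- the numerator of `4 (t^q - t)² x(Φ G - G)` -/
def Np : k[X] :=
  Dp W * (Dp W ^ eE k + 1) ^ 2 -
    (C 4 * X ^ Fintype.card k + C 4 * X + C W.b₂) * (X ^ Fintype.card k - X) ^ 2

variable (k) in
/-- the denominator `4 (t^q - t)²` -/
def Mp : k[X] := C 4 * (X ^ Fintype.card k - X) ^ 2

open Classical in
/-- abscissas with two points above them -/
def Sp : Finset k := Finset.univ.filter fun c => (Dp W).eval c ^ eE k = 1

open Classical in
/-- abscissas with no point above them -/
def Sm : Finset k := Finset.univ.filter fun c => (Dp W).eval c ^ eE k = -1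

open Classical in
/-- abscissas with one point above them -/
def Sz : Finset k := Finset.univ.filter fun c => (Dp W).eval c = 0

end

end Fermat.Agent.ECF
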