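import Fermat.Agent.ECF.CountDefs

/-! # Manin's count: the reduced fraction (WP ECF-CountA, pure polynomial algebra over a finite field)

`A_* = ∏_{c ∈ S_*} (X - c)`; `X^q - X = A₊ A₋ A₀` (`FiniteField.X_pow_card_sub_X...`/
`FiniteField.prod_X_sub_C`-type lemma, every `c` lies in exactly one of `S₊, S₋, S₀` because
`(D(c)^e)² = D(c)^(q-1) = 1` if `D(c) ≠ 0`), `A₋ ∣ D^e + 1`, `A₀ ∣ D`, `D = A₀ D'` with
`D'(c) ≠ 0` for `c ∈ S₀` (simple roots: `D(c) = D'(c) = 0` would make the point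
`(c, -(a₁ c + a₃)/2)` singular, or use `disc D = 16 Δ` by an explicit identity).
So `N = A₀ A₋² N'`, `M = 4 A₀² A₋² A₊² = A₀ A₋² M'`, `M' = 4 A₊² A₀`.
* coprimality: `M'` is a product of linear factors `X - c`, `c ∈ S₊ ∪ S₀`; for `c ∈ S₊`:
  `N(c) = 4 D(c) ≠ 0`; for `c ∈ S₀`: `(N / A₀)(c) = D'(c) ≠ 0`.
* degree: by `FiniteField.expand_card` (`D^q = D(X^q)`), `D^(2e+1) = D^q` and
  `N = 4 X^(2q+1) + 2 D^(e+1) + 4 X^(q+2) + 2 b₂ X^(q+1) + 2 b₄ X^q + 2 b₄ X + 2 b₆`,
  of degree `2q+1` since `3 (e + 1) < 2 q + 1`; `deg M = 2q`; `q = #S₊ + #S₋ + #S₀`. -/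

set_option autoImplicit false

namespace Fermat.Agent.ECF

open Polynomial WeierstrassCurve WeierstrassCurve.Affine

noncomputable section

variable {k : Type*} [Field k] [Fintype k] (W : WeierstrassCurve k)

/-! ### arithmetic of `q`, `e` -/

theorem two_mul_eE_add_one (h2 : (2 : k) ≠ 0) : 2 * eE k + 1 = Fintype.card k := by
  have hchar : ringChar k ≠ 2 := by
    intro h
    apply h2
    have := CharP.cast_eq_zero k (ringChar k)
    rw [h] at this
    exact_mod_cast this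
  have h1 := FiniteField.odd_card_of_char_ne_two hchar
  unfold eE
  omega

theorem one_le_eE (h2 : (2 : k) ≠ 0) : 1 ≤ eE k := by
  have h1 := two_mul_eE_add_one (k := k) h2
  have h3 : 1 < Fintype.card k := Fintype.one_lt_card
  omega

omit [Fintype k] in
theorem four_ne_zero_of_two (h2 : (2 : k) ≠ 0) : (4 : k) ≠ 0 := by
  have : (4 : k) = 2 * 2 := by norm_num
  rw [this]
  exact mul_ne_zero h2 h2

/-! ### `Np` -/

theorem Dp_pow_card : Dp W ^ Fintype.card k =
    C 4 * X ^ (3 * Fintype.card k) + C W.b₂ * X ^ (2 * Fintype.card k) +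
      C (2 * W.b₄) * X ^ Fintype.card k + C W.b₆ := by
  rw [← FiniteField.expand_card]
  simp only [Dp, map_add, map_mul, expand_C, expand_X, map_pow, ← pow_mul]
  ring_nf

theorem Np_eq (h2 : (2 : k) ≠ 0) :
    Np W = C 4 * X ^ (2 * Fintype.card k + 1) + C 2 * Dp W ^ (eE k + 1) +
      C 4 * X ^ (Fintype.card k + 2) + C (2 * W.b₂) * X ^ (Fintype.card k + 1) +
      C (2 * W.b₄) * X ^ Fintype.card k + C (2 * W.b₄) * X + C (2 * W.b₆) := by
  have hq := two_mul_eE_add_one (k := k) h2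
  have h1 : Dp W * (Dp W ^ eE k + 1) ^ 2 =
      Dp W ^ (2 * eE k + 1) + C 2 * Dp W ^ (eE k + 1) + Dp W := by
    rw [C_ofNat]
    ring
  unfold Np
  rw [h1, hq, Dp_pow_card]
  generalize Dp W ^ (eE k + 1) = E
  unfold Dp
  simp only [map_mul, C_ofNat]
  ring

omit [Fintype k] in
theorem natDegree_Dp_le : (Dp W).natDegree ≤ 3 := by
  unfold Dp
  compute_degree

theorem natDegree_Np (h2 : (2 : k) ≠ 0) : (Np W).natDegree = 2 * Fintype.card k + 1 := by
  have hq := two_mul_eE_add_one (k := k) h2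
  have he := one_le_eE (k := k) h2
  have h4 := four_ne_zero_of_two h2
  have hR : (C 2 * Dp W ^ (eE k + 1) +
      C 4 * X ^ (Fintype.card k + 2) + C (2 * W.b₂) * X ^ (Fintype.card k + 1) +
      C (2 * W.b₄) * X ^ Fintype.card k + C (2 * W.b₄) * X + C (2 * W.b₆) : k[X]) ∈
      degreeLT k (2 * Fintype.card k + 1) := by
    refine Submodule.add_mem _ (Submodule.add_mem _ (Submodule.add_mem _ (Submodule.add_mem _
      (Submodule.add_mem _ ?_ ?_) ?_) ?_) ?_) ?_
    · rw [mem_degreeLT]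
      refine lt_of_le_of_lt degree_le_natDegree ?_
      have h5 : (C 2 * Dp W ^ (eE k + 1)).natDegree ≤ (eE k + 1) * 3 :=
        (natDegree_C_mul_le _ _).trans (natDegree_pow_le_of_le _ (natDegree_Dp_le W))
      have h6 : (C 2 * Dp W ^ (eE k + 1)).natDegree < 2 * Fintype.card k + 1 := by omega
      exact_mod_cast h6
    · rw [mem_degreeLT]
      refine lt_of_le_of_lt (degree_C_mul_X_pow_le _ _) ?_
      have : Fintype.card k + 2 < 2 * Fintype.card k + 1 := by omega
      exact_mod_cast this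
    · rw [mem_degreeLT]
      refine lt_of_le_of_lt (degree_C_mul_X_pow_le _ _) ?_
      have : Fintype.card k + 1 < 2 * Fintype.card k + 1 := by omega
      exact_mod_cast this
    · rw [mem_degreeLT]
      refine lt_of_le_of_lt (degree_C_mul_X_pow_le _ _) ?_
      have : Fintype.card k < 2 * Fintype.card k + 1 := by omega
      exact_mod_cast this
    · rw [mem_degreeLT]
      refine lt_of_le_of_lt (degree_C_mul_X_le _) ?_
      have : 1 < 2 * Fintype.card k + 1 := by omega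
      exact_mod_cast this
    · rw [mem_degreeLT]
      refine lt_of_le_of_lt degree_C_le ?_
      have : 0 < 2 * Fintype.card k + 1 := by omega
      exact_mod_cast this
  rw [mem_degreeLT] at hR
  rw [Np_eq W h2]
  simp only [add_assoc] at hR ⊢
  apply natDegree_eq_of_degree_eq_some
  rw [degree_add_eq_left_of_degree_lt, degree_C_mul_X_pow _ h4]
  rw [degree_C_mul_X_pow _ h4]
  exact hR

/-! ### the partition of `k` -/

theorem mem_Sp {c : k} : c ∈ Sp W ↔ (Dp W).eval c ^ eE k = 1 := by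
  simp [Sp]

theorem mem_Sm {c : k} : c ∈ Sm W ↔ (Dp W).eval c ^ eE k = -1 := by
  simp [Sm]

theorem mem_Sz {c : k} : c ∈ Sz W ↔ (Dp W).eval c = 0 := by
  simp [Sz]

omit [Fintype k] in
theorem one_ne_neg_one_of_two (h2 : (2 : k) ≠ 0) : (1 : k) ≠ -1 := by
  intro h
  apply h2
  linear_combination h

theorem disjoint_Sp_Sm (h2 : (2 : k) ≠ 0) : Disjoint (Sp W) (Sm W) := by
  rw [Finset.disjoint_left]
  intro c h1 h3
  rw [mem_Sp] at h1
  rw [mem_Sm] at h3
  exact one_ne_neg_one_of_two h2 (h1.symm.trans h3)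

open Classical in
theorem disjoint_Spm_Sz (h2 : (2 : k) ≠ 0) : Disjoint (Sp W ∪ Sm W) (Sz W) := by
  have he := one_le_eE (k := k) h2
  rw [Finset.disjoint_left]
  intro c h1 h3
  rw [mem_Sz] at h3
  rw [Finset.mem_union, mem_Sp, mem_Sm, h3, zero_pow (by omega)] at h1
  rcases h1 with h1 | h1
  · exact zero_ne_one h1
  · exact zero_ne_one (neg_eq_zero.1 h1.symm).symm

open Classical in
theorem univ_eq_union (h2 : (2 : k) ≠ 0) : (Finset.univ : Finset k) = (Sp W ∪ Sm W) ∪ Sz W := by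
  have hq := two_mul_eE_add_one (k := k) h2
  ext c
  simp only [Finset.mem_univ, Finset.mem_union, mem_Sp, mem_Sm, mem_Sz, true_iff]
  by_cases h0 : (Dp W).eval c = 0
  · exact Or.inr h0
  · left
    have h1 := FiniteField.pow_card_sub_one_eq_one _ h0
    have h3 : Fintype.card k - 1 = eE k * 2 := by omega
    rw [h3, pow_mul] at h1
    exact sq_eq_one_iff.1 h1

theorem card_eq_add (h2 : (2 : k) ≠ 0) :
    Fintype.card k = (Sp W).card + (Sm W).card + (Sz W).card := by
  classical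
  rw [← Finset.card_univ, univ_eq_union W h2, Finset.card_union_of_disjoint (disjoint_Spm_Sz W h2),
    Finset.card_union_of_disjoint (disjoint_Sp_Sm W h2)]

/-! ### products of linear factors -/

/-- `∏_{c ∈ T} (X - c)` -/
def Ap (T : Finset k) : k[X] := ∏ c ∈ T, (X - C c)

omit [Fintype k] in
theorem monic_Ap (T : Finset k) : (Ap T).Monic := monic_prod_of_monic _ _ fun c _ => monic_X_sub_C c

omit [Fintype k] in
theorem Ap_ne_zero (T : Finset k) : Ap T ≠ 0 := (monic_Ap T).ne_zero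

omit [Fintype k] in
theorem natDegree_Ap (T : Finset k) : (Ap T).natDegree = T.card :=
  natDegree_finsetProd_X_sub_C_eq_card T _

omit [Fintype k] in
theorem eval_Ap_eq_zero {T : Finset k} {c : k} (hc : c ∈ T) : (Ap T).eval c = 0 := by
  unfold Ap
  rw [eval_prod]
  exact Finset.prod_eq_zero hc (by simp)

omit [Fintype k] in
theorem Ap_dvd {T : Finset k} {f : k[X]} (h : ∀ c ∈ T, f.eval c = 0) : Ap T ∣ f := by
  unfold Ap
  refine Finset.prod_dvd_of_coprime (fun a _ b _ hab => ?_) fun a ha => ?_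
  · exact pairwise_coprime_X_sub_C (s := fun x : k => x) Function.injective_id hab
  · exact dvd_iff_isRoot.2 (h a ha)

omit [Fintype k] in
theorem isCoprime_X_sub_C_of_eval_ne_zero {f : k[X]} {c : k} (h : f.eval c ≠ 0) :
    IsCoprime f (X - C c) := by
  rw [isCoprime_comm]
  exact (irreducible_X_sub_C c).coprime_iff_not_dvd.2 fun hd => h (dvd_iff_isRoot.1 hd)

omit [Fintype k] in
theorem isCoprime_Ap {T : Finset k} {f : k[X]} (h : ∀ c ∈ T, f.eval c ≠ 0) :
    IsCoprime f (Ap T) := by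
  unfold Ap
  exact IsCoprime.prod_right fun c hc => isCoprime_X_sub_C_of_eval_ne_zero (h c hc)

theorem X_pow_card_sub_X_eq_Ap : (X ^ Fintype.card k - X : k[X]) = Ap Finset.univ := by
  have hdeg := FiniteField.X_pow_card_sub_X_natDegree_eq k (p := Fintype.card k)
    Fintype.one_lt_card
  have hmon : (X ^ Fintype.card k - X : k[X]).Monic := by
    apply monic_X_pow_sub
    rw [degree_X]
    have : 1 < Fintype.card k := Fintype.one_lt_card
    exact_mod_cast this
  have h := prod_multiset_X_sub_C_of_monic_of_roots_card_eq hmon (by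
    rw [FiniteField.roots_X_pow_card_sub_X, hdeg]
    rfl)
  rw [FiniteField.roots_X_pow_card_sub_X] at h
  exact h.symm

theorem X_pow_card_sub_X_eq (h2 : (2 : k) ≠ 0) :
    (X ^ Fintype.card k - X : k[X]) = Ap (Sp W) * Ap (Sm W) * Ap (Sz W) := by
  classical
  rw [X_pow_card_sub_X_eq_Ap, univ_eq_union W h2]
  unfold Ap
  rw [Finset.prod_union (disjoint_Spm_Sz W h2), Finset.prod_union (disjoint_Sp_Sm W h2)]


/-! ### simple roots -/

omit [Fintype k] in
theorem Delta_eq_zero_of_double_root (h2 : (2 : k) ≠ 0) {c : k}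
    (h0 : (Dp W).eval c = 0) (h1 : (derivative (Dp W)).eval c = 0) : W.Δ = 0 := by
  have e0 : 4 * c ^ 3 + W.b₂ * c ^ 2 + 2 * W.b₄ * c + W.b₆ = 0 := by
    have : (Dp W).eval c = 4 * c ^ 3 + W.b₂ * c ^ 2 + 2 * W.b₄ * c + W.b₆ := by simp [Dp]
    rw [← this]
    exact h0
  have e1 : 12 * c ^ 2 + 2 * W.b₂ * c + 2 * W.b₄ = 0 := by
    have : (derivative (Dp W)).eval c = 12 * c ^ 2 + 2 * W.b₂ * c + 2 * W.b₄ := by
      simp [Dp]
      ring
    rw [← this]
    exact h1
  have hb4 : W.b₄ = -6 * c ^ 2 - W.b₂ * c := by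
    apply mul_left_cancel₀ h2
    linear_combination e1
  have hb6 : W.b₆ = 8 * c ^ 3 + W.b₂ * c ^ 2 := by
    linear_combination e0 - 2 * c * hb4
  have h16 : 16 * W.Δ = 4 * W.b₂ ^ 2 * W.b₄ ^ 2 - 128 * W.b₄ ^ 3 - 4 * W.b₂ ^ 3 * W.b₆ -
      432 * W.b₆ ^ 2 + 144 * W.b₂ * W.b₄ * W.b₆ := by
    rw [WeierstrassCurve.Δ]
    linear_combination (-4 * W.b₂ ^ 2) * W.b_relation
  rw [hb4, hb6] at h16
  have h0' : 16 * W.Δ = 0 := by
    rw [h16]
    ring
  have h16' : (16 : k) ≠ 0 := by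
    have : (16 : k) = 2 ^ 4 := by norm_num
    rw [this]
    exact pow_ne_zero _ h2
  exact (mul_eq_zero.1 h0').resolve_left h16'

theorem eval_Np (c : k) :
    (Np W).eval c = (Dp W).eval c * ((Dp W).eval c ^ eE k + 1) ^ 2 := by
  unfold Np
  simp only [eval_sub, eval_mul, eval_pow, eval_add, eval_one, eval_X, FiniteField.pow_card]
  ring

theorem exists_reduced (h2 : (2 : k) ≠ 0) (hΔ : W.Δ ≠ 0) :
    ∃ N' M' : k[X], IsCoprime N' M' ∧ M' ≠ 0 ∧ Np W * M' = N' * Mp k ∧
      pdeg N' M' = 1 + 2 * (Sp W).card + (Sz W).card := by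
  have he := one_le_eE (k := k) h2
  have h4 := four_ne_zero_of_two h2
  obtain ⟨D', hD'⟩ : Ap (Sz W) ∣ Dp W := Ap_dvd fun c hc => (mem_Sz W).1 hc
  obtain ⟨E', hE'⟩ : Ap (Sm W) ∣ Dp W ^ eE k + 1 := Ap_dvd fun c hc => by
    rw [eval_add, eval_pow, (mem_Sm W).1 hc, eval_one]
    ring
  obtain ⟨T, hT⟩ : ∃ T : k[X], T = C 4 * X ^ Fintype.card k + C 4 * X + C W.b₂ := ⟨_, rfl⟩
  obtain ⟨N', hN'⟩ : ∃ N' : k[X], N' = D' * E' ^ 2 - T * Ap (Sp W) ^ 2 * Ap (Sz W) := ⟨_, rfl⟩
  obtain ⟨M', hM'⟩ : ∃ M' : k[X], M' = C 4 * Ap (Sp W) ^ 2 * Ap (Sz W) := ⟨_, rfl⟩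
  have hN : Np W = Ap (Sz W) * Ap (Sm W) ^ 2 * N' := by
    unfold Np
    rw [← hT, X_pow_card_sub_X_eq W h2, hE', hD', hN']
    ring
  have hM : Mp k = Ap (Sz W) * Ap (Sm W) ^ 2 * M' := by
    unfold Mp
    rw [X_pow_card_sub_X_eq W h2, hM']
    ring
  have hM0 : M' ≠ 0 := by
    rw [hM']
    exact mul_ne_zero (mul_ne_zero (C_ne_zero.2 h4) (pow_ne_zero _ (Ap_ne_zero _))) (Ap_ne_zero _)
  have hNdeg := natDegree_Np W h2
  have hN0 : N' ≠ 0 := by
    rintro rfl
    rw [hN, mul_zero, natDegree_zero] at hNdeg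
    omega
  refine ⟨N', M', ?_, hM0, ?_, ?_⟩
  · rw [hM']
    refine IsCoprime.mul_right (IsCoprime.mul_right ?_ (IsCoprime.pow_right ?_)) ?_
    · exact ⟨0, C (4⁻¹), by rw [zero_mul, zero_add, ← C_mul, inv_mul_cancel₀ h4, C_1]⟩
    · refine isCoprime_Ap fun c hc h0 => ?_
      have h1 : (Np W).eval c = 0 := by rw [hN, eval_mul, h0, mul_zero]
      rw [eval_Np, (mem_Sp W).1 hc] at h1
      have h3 : (Dp W).eval c = 0 := by
        rcases mul_eq_zero.1 h1 with h | h
        · exact h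
        · exfalso
          apply h4
          linear_combination h
      have h5 := (mem_Sp W).1 hc
      rw [h3, zero_pow (by omega)] at h5
      exact zero_ne_one h5
    · refine isCoprime_Ap fun c hc h0 => ?_
      have hc0 : (Dp W).eval c = 0 := (mem_Sz W).1 hc
      have hA0 : (Ap (Sz W)).eval c = 0 := eval_Ap_eq_zero hc
      have hE0 : E'.eval c ≠ 0 := by
        intro h
        have := congrArg (eval c) hE'
        rw [eval_add, eval_pow, hc0, zero_pow (by omega), eval_one, eval_mul, h, mul_zero,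
          zero_add] at this
        exact one_ne_zero this
      have hD0 : D'.eval c ≠ 0 := by
        intro h
        apply hΔ
        refine Delta_eq_zero_of_double_root W h2 hc0 ?_
        rw [hD', derivative_mul, eval_add, eval_mul, eval_mul, h, hA0]
        ring
      rw [hN', eval_sub, eval_mul, eval_mul, eval_pow, hA0, mul_zero, sub_zero] at h0
      exact mul_ne_zero hD0 (pow_ne_zero _ hE0) h0
  · rw [hN, hM]
    ring
  · have hq := card_eq_add W h2
    have h1 : (Np W).natDegree = (Sz W).card + 2 * (Sm W).card + N'.natDegree := by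
      rw [hN, natDegree_mul (mul_ne_zero (Ap_ne_zero _) (pow_ne_zero _ (Ap_ne_zero _))) hN0,
        natDegree_mul (Ap_ne_zero _) (pow_ne_zero _ (Ap_ne_zero _)), natDegree_pow, natDegree_Ap,
        natDegree_Ap]
    have h3 : M'.natDegree = 2 * (Sp W).card + (Sz W).card := by
      rw [hM', natDegree_mul (mul_ne_zero (C_ne_zero.2 h4) (pow_ne_zero _ (Ap_ne_zero _)))
        (Ap_ne_zero _), natDegree_C_mul h4, natDegree_pow, natDegree_Ap, natDegree_Ap]
    unfold pdeg
    rw [h3]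
    omega


end

end Fermat.Agent.ECF
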