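import Mathlib
import Fermat.Agent.S05.Formulas

/-! # Elliptic curves over finite fields: basic definitions (heights over `k(t)`)

`k` a field, `K` an extension, `t : K` (transcendental in the applications), `W` a Weierstrass curve
over `k`.  A point `P` of `W(K)` whose `x`-coordinate lies in `k(t)` is *represented* by a coprime
pair of polynomials `(b, a)` with `x(P) = b(t) / a(t)`; the origin is represented by `(unit, 0)`. -/

set_option autoImplicit false

namespace Fermat.Agent.ECF

open Polynomial WeierstrassCurve WeierstrassCurve.Affine
open Fermat.Agent.S05 (xc yc)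

noncomputable section

variable {k : Type*} [Field k]

/-- the degree of the point `(b : a)` of `ℙ¹(k(t))` when `b`, `a` are coprime -/
def pdeg (b a : k[X]) : ℕ := max b.natDegree a.natDegree

variable {K : Type*} [Field K] [Algebra k K] {W : WeierstrassCurve k}

/-- `(b : a)` represents the `x`-coordinate of `P`. -/
def Rep (t : K) (P : (W⁄K).toAffine.Point) (b a : k[X]) : Prop :=
  IsCoprime b a ∧ ((P = 0 ∧ a = 0) ∨ (P ≠ 0 ∧ a ≠ 0 ∧ xc P * aeval t a = aeval t b))

/-- the `x`-coordinate of `P` lies in `k(t)` -/
def HasRep (t : K) (P : (W⁄K).toAffine.Point) : Prop := ∃ b a : k[X], Rep t P b a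

open Classical in
/-- the height of a point: the degree of its `x`-coordinate as a rational function of `t` -/
def ht (t : K) (P : (W⁄K).toAffine.Point) : ℕ :=
  if h : ∃ ba : k[X] × k[X], Rep t P ba.1 ba.2 then pdeg h.choose.1 h.choose.2 else 0

end

end Fermat.Agent.ECF
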