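import Fermat.Agent.ECF.Par
import Fermat.Agent.ECF.FunField

/-! # Frobenius on points and the height (WP ECF-Frob) -/

set_option autoImplicit false

namespace Fermat.Agent.ECF

open Polynomial WeierstrassCurve WeierstrassCurve.Affine
open Fermat.Agent.S05 (xc yc)

noncomputable section

variable {k : Type*} [Field k] {W : WeierstrassCurve k}

section Frob

variable [Fintype k] (K : Type*) [Field K] [Algebra k K] [DecidableEq K]

variable (W) in
/-- the `q`-Frobenius on points -/
def frobPt : (W⁄K).toAffine.Point →+ (W⁄K).toAffine.Point :=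
  Point.map (FiniteField.frobeniusAlgHom k K)

variable {K}

theorem map_frobPt {K' : Type*} [Field K'] [Algebra k K'] [DecidableEq K'] (σ : K →ₐ[k] K')
    (P : (W⁄K).toAffine.Point) : Point.map σ (frobPt W K P) = frobPt W K' (Point.map σ P) := by
  sorry

theorem rep_frobPt {t : K} {P : (W⁄K).toAffine.Point} {b a : k[X]} (h : Rep t P b a) :
    Rep t (frobPt W K P) (b ^ Fintype.card k) (a ^ Fintype.card k) := by
  sorry

theorem ht_frobPt {t : K} (htr : Transcendental k t) {P : (W⁄K).toAffine.Point}
    (hP : HasRep t P) : ht t (frobPt W K P) = Fintype.card k * ht t P := by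
  sorry

end Frob

end

end Fermat.Agent.ECF
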