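import Fermat.Agent.ECF.Quad
import Fermat.Agent.ECF.Comp
import Fermat.Agent.ECF.Count
import Fermat.Prelude.Def_FLTPrelim_Modularity

/-! # The quadratic relation of Frobenius at the generic point -/

set_option autoImplicit false

namespace Fermat.Agent.ECF

open Polynomial WeierstrassCurve WeierstrassCurve.Affine
open Fermat.Agent.S05 (xc yc)

noncomputable section

variable {k : Type*} [Field k] [Fintype k] (W : WeierstrassCurve k)

/-- the trace of Frobenius -/
def trF : ℤ := (Fintype.card k : ℤ) + 1 - (Nat.card W.toAffine.Point : ℤ)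

/-- `ψ = Φ² - a Φ + q` on points -/
def psi (K : Type*) [Field K] [Algebra k K] [DecidableEq K] :
    (W⁄K).toAffine.Point →+ (W⁄K).toAffine.Point :=
  (frobPt W K).comp (frobPt W K) - trF W • frobPt W K + (Fintype.card k : ℤ) • AddMonoidHom.id _

variable {W}

theorem psi_apply {K : Type*} [Field K] [Algebra k K] [DecidableEq K] (P : (W⁄K).toAffine.Point) :
    psi W K P = frobPt W K (frobPt W K P) - trF W • frobPt W K P + (Fintype.card k : ℤ) • P := rfl

theorem map_psi {K K' : Type*} [Field K] [Algebra k K] [DecidableEq K] [Field K'] [Algebra k K']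
    [DecidableEq K'] (σ : K →ₐ[k] K') (P : (W⁄K).toAffine.Point) :
    Point.map σ (psi W K P) = psi W K' (Point.map σ P) := by
  rw [psi_apply, psi_apply, map_add, map_sub, map_zsmul, map_zsmul, map_frobPt, map_frobPt]

variable [W.IsElliptic]

theorem Δ_ne_zero' : W.Δ ≠ 0 := W.isUnit_Δ.ne_zero

theorem frobPt_mem_Odd {P : (W⁄(KE W)).toAffine.Point} (hP : P ∈ Odd W) :
    frobPt W (KE W) P ∈ Odd W := by
  rw [mem_Odd] at hP ⊢
  rw [map_frobPt, hP, map_neg]

/-- Frobenius on the group of odd points -/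
def frobOdd : Odd W →+ Odd W :=
  ((frobPt W (KE W)).comp (Odd W).subtype).codRestrict (Odd W) fun P => frobPt_mem_Odd P.2

/-- the height on the group of odd points -/
def hOdd (P : Odd W) : ℤ := (ht (tE W) (P : (W⁄(KE W)).toAffine.Point) : ℤ)

theorem hOdd_par (x y : Odd W) : hOdd (x + y) + hOdd (x - y) = 2 * hOdd x + 2 * hOdd y := by
  have := ht_parallelogram (transcendental_tE W) Δ_ne_zero' (hasRep_of_mem_Odd x.2)
    (hasRep_of_mem_Odd y.2) (hasRep_of_mem_Odd (x + y).2) (hasRep_of_mem_Odd (x - y).2)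
  simp only [hOdd]
  exact_mod_cast this

/-- the generic point as an odd point -/
def genOdd : Odd W := ⟨gen W, gen_mem_Odd⟩

theorem hOdd_frob (x : Odd W) : hOdd (frobOdd x) = (Fintype.card k : ℤ) * hOdd x := by
  have := ht_frobPt (W := W) (transcendental_tE W) (hasRep_of_mem_Odd x.2)
  simp only [hOdd]
  exact_mod_cast this

theorem hOdd_gen : hOdd (genOdd (W := W)) = 1 := by
  simp only [hOdd, genOdd]
  exact_mod_cast ht_gen

theorem hOdd_frob_sub (h2 : (2 : k) ≠ 0) :
    hOdd (frobOdd (genOdd (W := W)) - genOdd) = (Fintype.card k : ℤ) + 1 - trF W := by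
  have := ht_frob_sub_gen (W := W) h2
  simp only [hOdd, trF]
  rw [sub_sub_cancel]
  exact_mod_cast this

theorem card_pos : 0 < Nat.card W.toAffine.Point := Nat.card_pos

theorem hOdd_mul (h2 : (2 : k) ≠ 0) :
    hOdd (frobOdd (frobOdd (genOdd (W := W))) - genOdd) =
      hOdd (frobOdd (genOdd (W := W)) - genOdd) * hOdd (frobOdd (genOdd (W := W)) + genOdd) := by
  set β : (W⁄(KE W)).toAffine.Point := frobPt W (KE W) (gen W) - gen W with hβ
  have hβO : β ∈ Odd W := (frobOdd (genOdd (W := W)) - genOdd).2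
  have hβht : ht (tE W) β ≠ 0 := by
    rw [hβ, ht_frob_sub_gen h2]
    exact card_pos.ne'
  obtain ⟨hβ0, hβtr⟩ := transcendental_xc_of_ht_ne_zero (transcendental_tE W)
    (hasRep_of_mem_Odd hβO) hβht
  obtain ⟨σ, hσ⟩ := exists_algHom β hβ0 hβtr
  have hP : frobPt W (KE W) (gen W) + gen W ∈ Odd W := (frobOdd (genOdd (W := W)) + genOdd).2
  have h1 := ht_map σ (by rw [hσ]; exact hβO) hP
  rw [map_add, map_frobPt, hσ] at h1
  have h3 : frobPt W (KE W) β + β = frobPt W (KE W) (frobPt W (KE W) (gen W)) - gen W := by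
    rw [hβ, map_sub]; abel
  rw [h3] at h1
  simp only [hOdd]
  exact_mod_cast h1

/-- the value of `ψ` at the generic point has height zero -/
theorem ht_psi_gen (h2 : (2 : k) ≠ 0) : ht (tE W) (psi W (KE W) (gen W)) = 0 := by
  have := quad_relation hOdd hOdd_par frobOdd (Fintype.card k : ℤ) hOdd_frob genOdd hOdd_gen
    (trF W) (hOdd_frob_sub h2) (hOdd_mul h2)
  simp only [hOdd] at this
  exact_mod_cast this

theorem psi_gen_mem_Odd : psi W (KE W) (gen W) ∈ Odd W :=
  (frobOdd (frobOdd (genOdd (W := W))) - trF W • frobOdd genOdd + (Fintype.card k : ℤ) • genOdd).2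

/-- multiples of the generic point are generic -/
theorem exists_algHom_nsmul (n : ℤ) (hn : n ≠ 0) :
    ∃ σ : KE W →ₐ[k] KE W, Point.map σ (gen W) = n • gen W := by
  have h1 : hOdd (n • genOdd (W := W)) = n ^ 2 * 1 := by
    rw [h_zsmul hOdd hOdd_par, hOdd_gen]
  have h2 : ht (tE W) (n • gen W) ≠ 0 := by
    intro h0
    simp only [hOdd] at h1
    have h3 : ((n • genOdd (W := W) : Odd W) : (W⁄(KE W)).toAffine.Point) = n • gen W := rfl
    rw [h3, h0] at h1
    have : n ^ 2 = 0 := by simpa using h1.symm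
    exact hn (pow_eq_zero_iff (two_ne_zero)|>.mp this)
  obtain ⟨h0, htr⟩ := transcendental_xc_of_ht_ne_zero (transcendental_tE W)
    (hasRep_of_mem_Odd (n • genOdd (W := W)).2) h2
  exact exists_algHom _ h0 htr

/-- **The quadratic relation at the generic point.** -/
theorem psi_gen (h2 : (2 : k) ≠ 0) : psi W (KE W) (gen W) = 0 := by
  set T := psi W (KE W) (gen W) with hT
  rcases isAlgebraic_of_ht_eq_zero (transcendental_tE W) (hasRep_of_mem_Odd psi_gen_mem_Odd)
    (ht_psi_gen h2) with h0 | ⟨c, hc⟩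
  · exact h0
  by_contra hT0
  -- `map σ T = ± T` for every `σ`
  have key : ∀ σ : KE W →ₐ[k] KE W, Point.map σ T = T ∨ Point.map σ T = -T := by
    intro σ
    have hne : Point.map σ T ≠ 0 := fun h =>
      hT0 (Point.map_injective (W' := W) σ (by rw [h, map_zero]))
    refine (Fermat.Agent.S05.xc_eq_iff hne hT0).mp ?_
    have : xc (Point.map σ T) = σ (xc T) := by
      cases hh : T with
      | zero => exact absurd hh hT0
      | some x y h => rfl
    rw [this, hc, AlgHom.commutes]
  have hmul : ∀ n : ℤ, n ≠ 0 → n • T = T ∨ n • T = -T := by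
    intro n hn
    obtain ⟨σ, hσ⟩ := exists_algHom_nsmul (W := W) n hn
    have := key σ
    rwa [hT, map_psi, hσ, map_zsmul, ← hT] at this
  have h3 : (3 : ℤ) • T = 0 := by
    rcases hmul 2 (by norm_num) with h | h
    · exfalso
      apply hT0
      have : (2 : ℤ) • T - T = 0 := by rw [h, sub_self]
      rwa [two_zsmul, add_sub_cancel_right] at this
    · have : (3 : ℤ) • T = (2 : ℤ) • T + T := by
        rw [show (3 : ℤ) = 2 + 1 by norm_num, add_zsmul, one_zsmul]
      rw [this, h, neg_add_cancel]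
  rcases hmul 3 (by norm_num) with h | h
  · exact hT0 (by rw [← h, h3])
  · exact hT0 (by rw [← neg_eq_zero, ← h, h3])

/-- the quadratic relation at all non-algebraic points -/
theorem psi_of_transcendental (h2 : (2 : k) ≠ 0) {K : Type*} [Field K] [Algebra k K]
    [DecidableEq K] (R : (W⁄K).toAffine.Point) (hR : R ≠ 0) (hx : Transcendental k (xc R)) :
    psi W K R = 0 := by
  obtain ⟨σ, hσ⟩ := exists_algHom R hR hx
  rw [← hσ, ← map_psi, psi_gen h2, map_zero]

end

end Fermat.Agent.ECF
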