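import Fermat.Agent.ECF.Defs

/-! # Degrees of coprime pairs / primitive triples of polynomials (WPs ECF-Ht1 .. ECF-Ht5)

Pure polynomial algebra over a field `k`.  `pdeg b a = max (natDegree b) (natDegree a)`. -/

set_option autoImplicit false

namespace Fermat.Agent.ECF

open Polynomial

noncomputable section

section Cert

variable {R : Type*} [CommRing R] (W : WeierstrassCurve R) (s t u : R)

/-- numerator of `x(P+Q) x(P-Q)` in terms of `(s : t : u) = (x(P) x(Q) : x(P) + x(Q) : 1)` -/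
def F0 : R := s ^ 2 - W.b₄ * s * u - W.b₆ * t * u - W.b₈ * u ^ 2

/-- numerator of `x(P+Q) + x(P-Q)` -/
def F1 : R := 2 * t * s + W.b₂ * s * u + W.b₄ * t * u + W.b₆ * u ^ 2

/-- the common denominator `(x(P) - x(Q))²` -/
def F2 : R := t ^ 2 - 4 * s * u

/-- (ECF-Ht1) The Nullstellensatz certificate.  Copy the coefficients from Mathlib's
`WeierstrassCurve.addSubMapCoeff` (file `EllipticCurve/Affine/AddSubMap.lean`); the proof there is
`simp; grind only [b_relation]` after unfolding `Δ`. -/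
theorem cert :
    (∃ c₀ c₁ c₂ : R, c₀ * F0 W s t u + c₁ * F1 W s t u + c₂ * F2 s t u = W.Δ * s ^ 4) ∧
    (∃ c₀ c₁ c₂ : R, c₀ * F0 W s t u + c₁ * F1 W s t u + c₂ * F2 s t u = W.Δ * t ^ 4) ∧
    (∃ c₀ c₁ c₂ : R, c₀ * F0 W s t u + c₁ * F1 W s t u + c₂ * F2 s t u = W.Δ * u ^ 4) := by
  have hb := W.b_relation
  refine ⟨⟨(-W.b₂ ^ 2 * W.b₈ + 9 * W.b₂ * W.b₄ * W.b₆ - 8 * W.b₄ ^ 3 - 27 * W.b₆ ^ 2) * s ^ 2 +
        (2 * W.b₂ * W.b₄ * W.b₈ - 2 * W.b₄ ^ 2 * W.b₆ - 10 * W.b₆ * W.b₈) * s * t +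
        (-W.b₂ * W.b₆ * W.b₈ + W.b₄ * W.b₆ ^ 2) * s * u +
        (3 * W.b₄ ^ 2 * W.b₈ - 3 * W.b₄ * W.b₆ ^ 2) * t ^ 2 +
        (3 * W.b₄ * W.b₆ * W.b₈ - 3 * W.b₆ ^ 3) * t * u,
      (-W.b₂ * W.b₄ * W.b₈ + W.b₄ ^ 2 * W.b₆ + 5 * W.b₆ * W.b₈) * s ^ 2 +
        (2 * W.b₂ * W.b₆ * W.b₈ - 2 * W.b₄ * W.b₆ ^ 2 - 10 * W.b₈ ^ 2) * s * t +
        (-W.b₂ * W.b₈ ^ 2 + W.b₄ * W.b₆ * W.b₈) * s * u +
        (3 * W.b₄ * W.b₆ * W.b₈ - 3 * W.b₆ ^ 3) * t ^ 2 +
        (3 * W.b₄ * W.b₈ ^ 2 - 3 * W.b₆ ^ 2 * W.b₈) * t * u,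
      (W.b₂ * W.b₆ * W.b₈ - 8 * W.b₄ ^ 2 * W.b₈ + 7 * W.b₄ * W.b₆ ^ 2) * s ^ 2 +
        (-6 * W.b₄ * W.b₆ * W.b₈ + 6 * W.b₆ ^ 3) * s * t +
        (-8 * W.b₄ * W.b₈ ^ 2 + 8 * W.b₆ ^ 2 * W.b₈) * s * u, ?_⟩,
    ⟨(96 * W.b₆) * s * t + (12 * W.b₂ * W.b₆ - 64 * W.b₈) * t ^ 2 +
        (16 * W.b₄ * W.b₆) * t * u,
      (-48 * W.b₆) * s ^ 2 + (32 * W.b₈) * s * t +
        (-4 * W.b₂ * W.b₈ + 16 * W.b₄ * W.b₆) * t ^ 2 + (16 * W.b₄ * W.b₈) * t * u,
      (-12 * W.b₂ * W.b₆) * s ^ 2 + (8 * W.b₂ * W.b₈ - 32 * W.b₄ * W.b₆) * s * t +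
        (-12 * W.b₆ ^ 2) * s * u +
        (-W.b₂ ^ 2 * W.b₈ + 9 * W.b₂ * W.b₄ * W.b₆ - 8 * W.b₄ ^ 3 - 27 * W.b₆ ^ 2) * t ^ 2 +
        (4 * W.b₂ * W.b₄ * W.b₈ - 4 * W.b₂ * W.b₆ ^ 2) * t * u, ?_⟩,
    ⟨(-12) * t ^ 2 + (-4 * W.b₂) * t * u + (W.b₂ ^ 2 - 32 * W.b₄) * u ^ 2,
      6 * s * t + (-W.b₂) * s * u + (-5 * W.b₄) * t * u + (W.b₂ * W.b₄ - 27 * W.b₆) * u ^ 2,
      (-8 * W.b₄) * s * u + (-12 * W.b₆) * t * u + (W.b₄ ^ 2 - 28 * W.b₈) * u ^ 2, ?_⟩⟩ <;>
  · rw [WeierstrassCurve.Δ, F0, F1, F2]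
    grind only

end Cert

variable {k : Type*} [Field k]

/-- Bezout-primitive triples -/
def Prim3 (p q r : k[X]) : Prop := ∃ x y z : k[X], x * p + y * q + z * r = 1

/-- the degree of a point of `ℙ²(k(t))` given by a primitive triple -/
def tdeg (p q r : k[X]) : ℕ := max p.natDegree (max q.natDegree r.natDegree)

theorem natDegree_mul_of_mul_eq_one {c c' : k[X]} (h : c * c' = 1) (p : k[X]) :
    (c * p).natDegree = p.natDegree := by
  have hu : IsUnit c := IsUnit.of_mul_eq_one _ h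
  obtain ⟨r, hr, rfl⟩ := Polynomial.isUnit_iff.1 hu
  exact natDegree_C_mul hr.ne_zero

/-- (ECF-Ht2) proportional coprime pairs have the same degree.
Proof: `u b + v a = 1`, `c := u b' + v a'` satisfies `c b = b'`, `c a = a'`; symmetrically `c'`;
`c c' = 1`, so `c` is a unit, i.e. a nonzero constant. -/
theorem pdeg_eq_of_mul_eq {b a b' a' : k[X]} (h : IsCoprime b a) (h' : IsCoprime b' a')
    (hp : b * a' = b' * a) : pdeg b a = pdeg b' a' := by
  obtain ⟨u, v, huv⟩ := h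
  obtain ⟨u', v', huv'⟩ := h'
  set c := u * b' + v * a' with hc
  set c' := u' * b + v' * a with hc'
  have h1 : c * b = b' := by rw [hc]; linear_combination b' * huv + v * hp
  have h2 : c * a = a' := by rw [hc]; linear_combination a' * huv - u * hp
  have h3 : c' * b' = b := by rw [hc']; linear_combination b * huv' - v' * hp
  have h4 : c' * a' = a := by rw [hc']; linear_combination a * huv' + u' * hp
  have h5 : c * c' = 1 := by
    have e1 : (c * c' - 1) * b' = 0 := by linear_combination c * h3 + h1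
    have e2 : (c * c' - 1) * a' = 0 := by linear_combination c * h4 + h2
    linear_combination u' * e1 + v' * e2 - (c * c' - 1) * huv'
  unfold pdeg
  rw [← h1, ← h2, natDegree_mul_of_mul_eq_one h5, natDegree_mul_of_mul_eq_one h5]

/-- (ECF-Ht2) proportional primitive triples have the same degree (same proof) -/
theorem tdeg_eq_of_prop {p q r p' q' r' : k[X]} (h : Prim3 p q r) (h' : Prim3 p' q' r')
    (h01 : p * q' = q * p') (h02 : p * r' = r * p') (h12 : q * r' = r * q') :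
    tdeg p q r = tdeg p' q' r' := by
  obtain ⟨x, y, z, hxyz⟩ := h
  obtain ⟨x', y', z', hxyz'⟩ := h'
  set c := x * p' + y * q' + z * r' with hc
  set c' := x' * p + y' * q + z' * r with hc'
  have h1 : c * p = p' := by rw [hc]; linear_combination p' * hxyz + y * h01 + z * h02
  have h2 : c * q = q' := by rw [hc]; linear_combination q' * hxyz - x * h01 + z * h12
  have h3 : c * r = r' := by rw [hc]; linear_combination r' * hxyz - x * h02 - y * h12
  have h4 : c' * p' = p := by rw [hc']; linear_combination p * hxyz' - y' * h01 - z' * h02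
  have h5 : c' * q' = q := by rw [hc']; linear_combination q * hxyz' + x' * h01 - z' * h12
  have h6 : c' * r' = r := by rw [hc']; linear_combination r * hxyz' + x' * h02 + y' * h12
  have h7 : c * c' = 1 := by
    have e1 : (c * c' - 1) * p' = 0 := by linear_combination c * h4 + h1
    have e2 : (c * c' - 1) * q' = 0 := by linear_combination c * h5 + h2
    have e3 : (c * c' - 1) * r' = 0 := by linear_combination c * h6 + h3
    linear_combination x' * e1 + y' * e2 + z' * e3 - (c * c' - 1) * hxyz'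
  unfold tdeg
  rw [← h1, ← h2, ← h3, natDegree_mul_of_mul_eq_one h7, natDegree_mul_of_mul_eq_one h7,
    natDegree_mul_of_mul_eq_one h7]

/-- (ECF-Ht3) `b² , a² ∈ (b b', b a' + a b', a a')`, then `IsCoprime.pow`. -/
theorem prim3_mul {b a b' a' : k[X]} (h : IsCoprime b a) (h' : IsCoprime b' a') :
    Prim3 (b * b') (b * a' + a * b') (a * a') := by
  obtain ⟨X', Y', hXY⟩ : IsCoprime (b ^ 2) (a ^ 2) := h.pow
  obtain ⟨u', v', huv'⟩ := h'
  refine ⟨X' * (u' * b - v' * a), X' * v' * b + Y' * u' * a, Y' * (v' * a - u' * b), ?_⟩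
  linear_combination (X' * b ^ 2 + Y' * a ^ 2) * huv' + hXY

/-- a polynomial of degree `≤ d` whose coefficient in degree `d` vanishes is `0` or of degree
`< d` -/
theorem eq_zero_or_natDegree_lt {p : k[X]} {d : ℕ} (hd : p.natDegree ≤ d) (hc : p.coeff d = 0) :
    p = 0 ∨ p.natDegree < d := by
  by_cases hp : p = 0
  · exact Or.inl hp
  · right
    refine lt_of_le_of_ne hd ?_
    rintro rfl
    exact hp (leadingCoeff_eq_zero.1 hc)

theorem coeff_pdeg_ne_zero {b a : k[X]} (h : IsCoprime b a) :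
    b.coeff (pdeg b a) ≠ 0 ∨ a.coeff (pdeg b a) ≠ 0 := by
  by_contra hcon
  push Not at hcon
  obtain ⟨h1, h2⟩ := hcon
  have hb := eq_zero_or_natDegree_lt (le_max_left _ _ : b.natDegree ≤ pdeg b a) h1
  have ha := eq_zero_or_natDegree_lt (le_max_right _ _ : a.natDegree ≤ pdeg b a) h2
  have hmax : pdeg b a = max b.natDegree a.natDegree := rfl
  rcases Nat.eq_zero_or_pos (pdeg b a) with h0 | h0
  · have hb0 : b = 0 := hb.resolve_right (by omega)
    have ha0 : a = 0 := ha.resolve_right (by omega)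
    obtain ⟨u, v, huv⟩ := h
    rw [hb0, ha0] at huv
    simp at huv
  · have hb' : b.natDegree < pdeg b a := by
      rcases hb with rfl | hb
      · simpa using h0
      · exact hb
    have ha' : a.natDegree < pdeg b a := by
      rcases ha with rfl | ha
      · simpa using h0
      · exact ha
    have := max_lt hb' ha'
    omega

theorem coeff_tdeg_ne_zero {p q r : k[X]} (h : Prim3 p q r) :
    p.coeff (tdeg p q r) ≠ 0 ∨ q.coeff (tdeg p q r) ≠ 0 ∨ r.coeff (tdeg p q r) ≠ 0 := by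
  by_contra hcon
  push Not at hcon
  obtain ⟨h1, h2, h3⟩ := hcon
  have hp := eq_zero_or_natDegree_lt (le_max_left _ _ : p.natDegree ≤ tdeg p q r) h1
  have hq := eq_zero_or_natDegree_lt
    ((le_max_left _ _).trans (le_max_right _ _) : q.natDegree ≤ tdeg p q r) h2
  have hr := eq_zero_or_natDegree_lt
    ((le_max_right _ _).trans (le_max_right _ _) : r.natDegree ≤ tdeg p q r) h3
  have hmax : tdeg p q r = max p.natDegree (max q.natDegree r.natDegree) := rfl
  rcases Nat.eq_zero_or_pos (tdeg p q r) with h0 | h0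
  · have hp0 : p = 0 := hp.resolve_right (by omega)
    have hq0 : q = 0 := hq.resolve_right (by omega)
    have hr0 : r = 0 := hr.resolve_right (by omega)
    obtain ⟨x, y, z, hxyz⟩ := h
    rw [hp0, hq0, hr0] at hxyz
    simp at hxyz
  · have hp' : p.natDegree < tdeg p q r := by
      rcases hp with rfl | hp
      · simpa using h0
      · exact hp
    have hq' : q.natDegree < tdeg p q r := by
      rcases hq with rfl | hq
      · simpa using h0
      · exact hq
    have hr' : r.natDegree < tdeg p q r := by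
      rcases hr with rfl | hr
      · simpa using h0
      · exact hr
    have := max_lt hp' (max_lt hq' hr')
    omega

/-- (ECF-Ht3) look at the coefficients in degree `pdeg b a + pdeg b' a'`
(`Polynomial.coeff_mul_add_eq_of_natDegree_le`). -/
theorem tdeg_mul {b a b' a' : k[X]} (h : IsCoprime b a) (h' : IsCoprime b' a') :
    tdeg (b * b') (b * a' + a * b') (a * a') = pdeg b a + pdeg b' a' := by
  set d := pdeg b a with hd
  set d' := pdeg b' a' with hd'
  have hb : b.natDegree ≤ d := le_max_left _ _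
  have ha : a.natDegree ≤ d := le_max_right _ _
  have hb' : b'.natDegree ≤ d' := le_max_left _ _
  have ha' : a'.natDegree ≤ d' := le_max_right _ _
  have hmul : ∀ {p q : k[X]}, p.natDegree ≤ d → q.natDegree ≤ d' → (p * q).natDegree ≤ d + d' :=
    fun hp hq => natDegree_mul_le.trans (add_le_add hp hq)
  apply le_antisymm
  · unfold tdeg
    refine max_le (hmul hb hb') (max_le ?_ (hmul ha ha'))
    exact (natDegree_add_le _ _).trans (max_le (hmul hb ha') (hmul ha hb'))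
  · have c1 : (b * b').coeff (d + d') = b.coeff d * b'.coeff d' :=
      coeff_mul_add_eq_of_natDegree_le hb hb'
    have c2 : (b * a' + a * b').coeff (d + d') = b.coeff d * a'.coeff d' + a.coeff d * b'.coeff d' := by
      rw [coeff_add, coeff_mul_add_eq_of_natDegree_le hb ha', coeff_mul_add_eq_of_natDegree_le ha hb']
    have c3 : (a * a').coeff (d + d') = a.coeff d * a'.coeff d' :=
      coeff_mul_add_eq_of_natDegree_le ha ha'
    have hne : (b * b').coeff (d + d') ≠ 0 ∨ (b * a' + a * b').coeff (d + d') ≠ 0 ∨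
        (a * a').coeff (d + d') ≠ 0 := by
      by_contra hcon
      push Not at hcon
      obtain ⟨e1, e2, e3⟩ := hcon
      rw [c1] at e1
      rw [c2] at e2
      rw [c3] at e3
      have n1 := coeff_pdeg_ne_zero h
      have n2 := coeff_pdeg_ne_zero h'
      rw [← hd] at n1
      rw [← hd'] at n2
      by_cases hβ : b.coeff d = 0
      · have hα : a.coeff d ≠ 0 := n1.resolve_left (not_not.2 hβ)
        have hα' : a'.coeff d' = 0 := (mul_eq_zero.1 e3).resolve_left hα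
        have hβ' : b'.coeff d' ≠ 0 := n2.resolve_right (not_not.2 hα')
        rw [hβ, zero_mul, zero_add] at e2
        exact (mul_ne_zero hα hβ') e2
      · have hβ' : b'.coeff d' = 0 := (mul_eq_zero.1 e1).resolve_left hβ
        have hα' : a'.coeff d' ≠ 0 := n2.resolve_left (not_not.2 hβ')
        have hα : a.coeff d = 0 := (mul_eq_zero.1 e3).resolve_right hα'
        rw [hα, zero_mul, add_zero] at e2
        exact (mul_ne_zero hβ hα') e2
    unfold tdeg
    rcases hne with h1 | h1 | h1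
    · exact (le_natDegree_of_ne_zero h1).trans (le_max_left _ _)
    · exact (le_natDegree_of_ne_zero h1).trans ((le_max_left _ _).trans (le_max_right _ _))
    · exact (le_natDegree_of_ne_zero h1).trans ((le_max_right _ _).trans (le_max_right _ _))

theorem prim3_iff_span {p q r : k[X]} : Prim3 p q r ↔ Ideal.span {p, q, r} = ⊤ := by
  rw [Ideal.eq_top_iff_one, Ideal.mem_span_insert]
  constructor
  · rintro ⟨x, y, z, h⟩
    exact ⟨x, y * q + z * r, Ideal.mem_span_pair.2 ⟨y, z, rfl⟩, by rw [← h]; ring⟩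
  · rintro ⟨x, w, hw, h⟩
    obtain ⟨y, z, rfl⟩ := Ideal.mem_span_pair.1 hw
    exact ⟨x, y, z, by rw [h]; ring⟩

/-- (ECF-Ht4) `cert` over `k[X]` + `Ideal.span_pow_eq_top` (or the 10-th power of the Bezout
relation). -/
theorem prim3_F (W : WeierstrassCurve k) (hΔ : W.Δ ≠ 0) {s t u : k[X]} (h : Prim3 s t u) :
    Prim3 (F0 (W.map C) s t u) (F1 (W.map C) s t u) (F2 s t u) := by
  rw [prim3_iff_span] at h ⊢
  have h4 := Ideal.span_pow_eq_top _ h 4
  rw [eq_top_iff, ← h4, Ideal.span_le]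
  have hΔ' : (W.map C).Δ = C W.Δ := WeierstrassCurve.map_Δ W C
  have key : ∀ x : k[X], (∃ c₀ c₁ c₂ : k[X], c₀ * F0 (W.map C) s t u + c₁ * F1 (W.map C) s t u +
      c₂ * F2 s t u = (W.map C).Δ * x ^ 4) →
      x ^ 4 ∈ Ideal.span {F0 (W.map C) s t u, F1 (W.map C) s t u, F2 s t u} := by
    rintro x ⟨c₀, c₁, c₂, hc⟩
    have e : x ^ 4 = C W.Δ⁻¹ * (c₀ * F0 (W.map C) s t u + c₁ * F1 (W.map C) s t u +
        c₂ * F2 s t u) := by
      rw [hc, hΔ', ← mul_assoc, ← C_mul, inv_mul_cancel₀ hΔ, C_1, one_mul]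
    rw [e]
    refine Ideal.mul_mem_left _ _ (Ideal.add_mem _ (Ideal.add_mem _ ?_ ?_) ?_)
    · exact Ideal.mul_mem_left _ _ (Ideal.subset_span (by simp))
    · exact Ideal.mul_mem_left _ _ (Ideal.subset_span (by simp))
    · exact Ideal.mul_mem_left _ _ (Ideal.subset_span (by simp))
  obtain ⟨k1, k2, k3⟩ := cert (W.map C) s t u
  rintro _ ⟨x, hx, rfl⟩
  simp only [Set.mem_insert_iff, Set.mem_singleton_iff] at hx
  rcases hx with rfl | rfl | rfl
  · exact key _ k1
  · exact key _ k2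
  · exact key _ k3

/-- (ECF-Ht5) the coefficients of `F_j(s,t,u)` in degree `2 d`, `d = tdeg s t u`, are
`F_j(s_d, t_d, u_d)`; `cert` over `k`. -/
theorem tdeg_F (W : WeierstrassCurve k) (hΔ : W.Δ ≠ 0) {s t u : k[X]} (h : Prim3 s t u) :
    tdeg (F0 (W.map C) s t u) (F1 (W.map C) s t u) (F2 s t u) = 2 * tdeg s t u := by
  set d := tdeg s t u with hd
  have hs : s.natDegree ≤ d := le_max_left _ _
  have ht : t.natDegree ≤ d := (le_max_left _ _).trans (le_max_right _ _)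
  have hu : u.natDegree ≤ d := (le_max_right _ _).trans (le_max_right _ _)
  have hdeg : ∀ (c : k) {p q : k[X]}, p.natDegree ≤ d → q.natDegree ≤ d →
      (C c * p * q).natDegree ≤ d + d := fun c p q hp hq =>
    natDegree_mul_le.trans (add_le_add ((natDegree_C_mul_le _ _).trans hp) hq)
  have hcoef : ∀ (c : k) {p q : k[X]}, p.natDegree ≤ d → q.natDegree ≤ d →
      (C c * p * q).coeff (d + d) = c * p.coeff d * q.coeff d := fun c p q hp hq => by
    rw [coeff_mul_add_eq_of_natDegree_le ((natDegree_C_mul_le _ _).trans hp) hq, coeff_C_mul]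
  have e0 : F0 (W.map C) s t u =
      C 1 * s * s - C W.b₄ * s * u - C W.b₆ * t * u - C W.b₈ * u * u := by
    rw [F0, WeierstrassCurve.map_b₄, WeierstrassCurve.map_b₆, WeierstrassCurve.map_b₈, C_1]
    ring
  have e1 : F1 (W.map C) s t u =
      C 2 * t * s + C W.b₂ * s * u + C W.b₄ * t * u + C W.b₆ * u * u := by
    rw [F1, WeierstrassCurve.map_b₂, WeierstrassCurve.map_b₄, WeierstrassCurve.map_b₆]
    have : (C 2 : k[X]) = 2 := C_ofNat 2
    rw [this]
    ring
  have e2 : F2 s t u = C 1 * t * t - C 4 * s * u := by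
    rw [F2]
    have : (C 4 : k[X]) = 4 := C_ofNat 4
    rw [this, C_1]
    ring
  have c0 : (F0 (W.map C) s t u).coeff (d + d) = F0 W (s.coeff d) (t.coeff d) (u.coeff d) := by
    rw [e0, coeff_sub, coeff_sub, coeff_sub, hcoef _ hs hs, hcoef _ hs hu, hcoef _ ht hu,
      hcoef _ hu hu, F0]
    ring
  have c1 : (F1 (W.map C) s t u).coeff (d + d) = F1 W (s.coeff d) (t.coeff d) (u.coeff d) := by
    rw [e1, coeff_add, coeff_add, coeff_add, hcoef _ ht hs, hcoef _ hs hu, hcoef _ ht hu,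
      hcoef _ hu hu, F1]
    ring
  have c2 : (F2 s t u).coeff (d + d) = F2 (s.coeff d) (t.coeff d) (u.coeff d) := by
    rw [e2, coeff_sub, hcoef _ ht ht, hcoef _ hs hu, F2]
    ring
  rw [two_mul]
  apply le_antisymm
  · unfold tdeg
    refine max_le ?_ (max_le ?_ ?_)
    · rw [e0]
      refine (natDegree_sub_le _ _).trans (max_le ((natDegree_sub_le _ _).trans (max_le
        ((natDegree_sub_le _ _).trans (max_le (hdeg _ hs hs) (hdeg _ hs hu))) (hdeg _ ht hu)))
        (hdeg _ hu hu))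
    · rw [e1]
      refine (natDegree_add_le _ _).trans (max_le ((natDegree_add_le _ _).trans (max_le
        ((natDegree_add_le _ _).trans (max_le (hdeg _ ht hs) (hdeg _ hs hu))) (hdeg _ ht hu)))
        (hdeg _ hu hu))
    · rw [e2]
      exact (natDegree_sub_le _ _).trans (max_le (hdeg _ ht ht) (hdeg _ hs hu))
  · have hne : (F0 (W.map C) s t u).coeff (d + d) ≠ 0 ∨ (F1 (W.map C) s t u).coeff (d + d) ≠ 0 ∨
        (F2 s t u).coeff (d + d) ≠ 0 := by
      by_contra hcon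
      push Not at hcon
      obtain ⟨z0, z1, z2⟩ := hcon
      rw [c0] at z0
      rw [c1] at z1
      rw [c2] at z2
      obtain ⟨⟨a₀, a₁, a₂, k1⟩, ⟨b₀, b₁, b₂, k2⟩, ⟨g₀, g₁, g₂, k3⟩⟩ :=
        cert W (s.coeff d) (t.coeff d) (u.coeff d)
      rw [z0, z1, z2] at k1 k2 k3
      simp only [mul_zero, add_zero] at k1 k2 k3
      have n := coeff_tdeg_ne_zero h
      rw [← hd] at n
      rcases n with n | n | n
      · exact (mul_ne_zero hΔ (pow_ne_zero 4 n)) k1.symm
      · exact (mul_ne_zero hΔ (pow_ne_zero 4 n)) k2.symm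
      · exact (mul_ne_zero hΔ (pow_ne_zero 4 n)) k3.symm
    unfold tdeg
    rcases hne with h1 | h1 | h1
    · exact (le_natDegree_of_ne_zero h1).trans (le_max_left _ _)
    · exact (le_natDegree_of_ne_zero h1).trans ((le_max_left _ _).trans (le_max_right _ _))
    · exact (le_natDegree_of_ne_zero h1).trans ((le_max_right _ _).trans (le_max_right _ _))

/-- **The polynomial form of the parallelogram law.**  `(bᵢ : aᵢ)`, `i = 1, 2, 3, 4`, coprime pairs
(the `x`-coordinates of `P`, `Q`, `P + Q`, `P - Q`). -/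
theorem pdeg_add_sub (W : WeierstrassCurve k) (hΔ : W.Δ ≠ 0) {b₁ a₁ b₂ a₂ b₃ a₃ b₄ a₄ : k[X]}
    (h₁ : IsCoprime b₁ a₁) (h₂ : IsCoprime b₂ a₂) (h₃ : IsCoprime b₃ a₃) (h₄ : IsCoprime b₄ a₄)
    (h01 : (b₃ * b₄) * F1 (W.map C) (b₁ * b₂) (b₁ * a₂ + a₁ * b₂) (a₁ * a₂) =
      (b₃ * a₄ + a₃ * b₄) * F0 (W.map C) (b₁ * b₂) (b₁ * a₂ + a₁ * b₂) (a₁ * a₂))
    (h02 : (b₃ * b₄) * F2 (b₁ * b₂) (b₁ * a₂ + a₁ * b₂) (a₁ * a₂) =
      (a₃ * a₄) * F0 (W.map C) (b₁ * b₂) (b₁ * a₂ + a₁ * b₂) (a₁ * a₂))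
    (h12 : (b₃ * a₄ + a₃ * b₄) * F2 (b₁ * b₂) (b₁ * a₂ + a₁ * b₂) (a₁ * a₂) =
      (a₃ * a₄) * F1 (W.map C) (b₁ * b₂) (b₁ * a₂ + a₁ * b₂) (a₁ * a₂)) :
    pdeg b₃ a₃ + pdeg b₄ a₄ = 2 * pdeg b₁ a₁ + 2 * pdeg b₂ a₂ := by
  rw [← tdeg_mul h₃ h₄, tdeg_eq_of_prop (prim3_mul h₃ h₄) (prim3_F W hΔ (prim3_mul h₁ h₂)) h01 h02 h12,
    tdeg_F W hΔ (prim3_mul h₁ h₂), tdeg_mul h₁ h₂, mul_add]

end

end Fermat.Agent.ECF
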