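import Fermat.Agent.ECF.Generic

/-! # The quadratic relation of Frobenius on all points (final deliverable of ECF) -/

set_option autoImplicit false

namespace Fermat.Agent.ECF

open Polynomial WeierstrassCurve WeierstrassCurve.Affine
open Fermat.Agent.S05 (xc yc)

noncomputable section

universe u v

variable {k : Type u} [Field k] [Fintype k] {W : WeierstrassCurve k}

/-- every point becomes a difference of two non-algebraic points in a bigger field -/
theorem exists_transcendental_add [W.IsElliptic] {K : Type v} [Field K] [Algebra k K] [DecidableEq K]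
    (P : (W⁄K).toAffine.Point) :
    ∃ (K₂ : Type v) (_ : Field K₂) (_ : Algebra k K₂) (_ : DecidableEq K₂) (j : K →ₐ[k] K₂)
      (G : (W⁄K₂).toAffine.Point), G ≠ 0 ∧ Transcendental k (xc G) ∧
        G + Point.map j P ≠ 0 ∧ Transcendental k (xc (G + Point.map j P)) := by
  sorry

theorem psi_eq_zero [W.IsElliptic] (h2 : (2 : k) ≠ 0) {K : Type*} [Field K] [Algebra k K]
    [DecidableEq K] (P : (W⁄K).toAffine.Point) : psi W K P = 0 := by
  obtain ⟨K₂, _, _, _, j, G, hG0, hGtr, hS0, hStr⟩ := exists_transcendental_add P
  apply Point.map_injective (W' := W) j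
  rw [map_zero, map_psi]
  have h1 := psi_of_transcendental h2 G hG0 hGtr
  have h3 := psi_of_transcendental h2 _ hS0 hStr
  rw [map_add, h1, zero_add] at h3
  exact h3

theorem trF_eq : trF W = W.traceOfFrobenius := by
  rw [trF, traceOfFrobenius, WeierstrassCurve.card, Nat.card_eq_fintype_card (α := k)]

/-- **`Φ² - a Φ + q = 0`** on `E(K)` for every field extension `K` of the finite field `k` of odd
characteristic, `a = q + 1 - #E(k)`. -/
theorem frob_quadratic (W : WeierstrassCurve k) (hΔ : W.Δ ≠ 0) (h2 : (2 : k) ≠ 0)
    {K : Type*} [Field K] [Algebra k K] [DecidableEq K] (P : (W⁄K).toAffine.Point) :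
    Point.map (FiniteField.frobeniusAlgHom k K) (Point.map (FiniteField.frobeniusAlgHom k K) P)
      - W.traceOfFrobenius • Point.map (FiniteField.frobeniusAlgHom k K) P
      + (Fintype.card k : ℤ) • P = 0 := by
  have : W.IsElliptic := ⟨isUnit_iff_ne_zero.mpr hΔ⟩
  have := psi_eq_zero h2 P
  rw [psi_apply, trF_eq] at this
  exact this

end

end Fermat.Agent.ECF
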