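import Fermat.Agent.ECF.Proj

/-! # The exact parallelogram law for the height `ht` (WP ECF-Par) -/

set_option autoImplicit false

namespace Fermat.Agent.ECF

open Polynomial WeierstrassCurve WeierstrassCurve.Affine
open Fermat.Agent.S05 (xc yc)

noncomputable section

variable {k : Type*} [Field k] {K : Type*} [Field K] [Algebra k K] {W : WeierstrassCurve k}
  {t : K}

theorem aeval_injective_of_transcendental (htr : Transcendental k t) :
    Function.Injective (aeval t : k[X] →ₐ[k] K) :=
  transcendental_iff_injective.1 htr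

theorem aeval_ne_zero_of_transcendental (htr : Transcendental k t) {a : k[X]} (ha : a ≠ 0) :
    aeval t a ≠ 0 := fun h => ha (aeval_injective_of_transcendental htr (by rw [h, map_zero]))

/-- two representations of the same point are proportional -/
theorem Rep.mul_eq (htr : Transcendental k t) {P : (W⁄K).toAffine.Point} {b a b' a' : k[X]}
    (h : Rep t P b a) (h' : Rep t P b' a') : b * a' = b' * a := by
  rcases h.2 with ⟨h0, ha⟩ | ⟨h0, ha, hx⟩
  · rcases h'.2 with ⟨_, ha'⟩ | ⟨h0', _, _⟩
    · rw [ha, ha', mul_zero, mul_zero]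
    · exact absurd h0 h0'
  · rcases h'.2 with ⟨h0', _⟩ | ⟨_, ha', hx'⟩
    · exact absurd h0' h0
    · apply aeval_injective_of_transcendental htr
      rw [map_mul, map_mul, ← hx, ← hx']
      ring

/-- two representations are proportional (`aeval t` is injective), then `pdeg_eq_of_mul_eq` -/
theorem ht_eq (htr : Transcendental k t) {P : (W⁄K).toAffine.Point} {b a : k[X]}
    (h : Rep t P b a) : ht t P = pdeg b a := by
  have hex : ∃ ba : k[X] × k[X], Rep t P ba.1 ba.2 := ⟨(b, a), h⟩
  rw [ht, dif_pos hex]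
  exact pdeg_eq_of_mul_eq hex.choose_spec.1 h.1 (hex.choose_spec.mul_eq htr h)

theorem hasRep_zero : HasRep t (0 : (W⁄K).toAffine.Point) :=
  ⟨1, 0, isCoprime_one_left, Or.inl ⟨rfl, rfl⟩⟩

theorem ht_zero (htr : Transcendental k t) : ht t (0 : (W⁄K).toAffine.Point) = 0 := by
  rw [ht_eq htr (b := 1) (a := 0) ⟨isCoprime_one_left, Or.inl ⟨rfl, rfl⟩⟩]
  simp [pdeg]

/-- from any fraction to a coprime representation (divide by the gcd); version with the
hypothesis `a(t) ≠ 0`, valid for every `t`. -/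
theorem hasRep_of_eq' {P : (W⁄K).toAffine.Point} {b a : k[X]} (ha : aeval t a ≠ 0)
    (h : xc P * aeval t a = aeval t b) : HasRep t P := by
  classical
  by_cases hP : P = 0
  · rw [hP]; exact hasRep_zero
  have ha0 : a ≠ 0 := fun h0 => ha (by rw [h0, map_zero])
  have hg : EuclideanDomain.gcd b a ≠ 0 := fun h0 =>
    ha0 (EuclideanDomain.gcd_eq_zero_iff.1 h0).2
  obtain ⟨b', hb'⟩ := EuclideanDomain.gcd_dvd_left b a
  obtain ⟨a', ha'⟩ := EuclideanDomain.gcd_dvd_right b a
  set g := EuclideanDomain.gcd b a with hgdef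
  have hcop : IsCoprime b' a' := by
    obtain ⟨u, v, huv⟩ : ∃ u v : k[X], g = b * u + a * v :=
      ⟨_, _, EuclideanDomain.gcd_eq_gcd_ab b a⟩
    refine ⟨u, v, mul_left_cancel₀ hg ?_⟩
    calc g * (u * b' + v * a') = (g * b') * u + (g * a') * v := by ring
      _ = g * 1 := by rw [← hb', ← ha', ← huv, mul_one]
  have hgt : aeval t g ≠ 0 := fun h0 => ha (by rw [ha', map_mul, h0, zero_mul])
  have ha'0 : a' ≠ 0 := fun h0 => ha0 (by rw [ha', h0, mul_zero])
  refine ⟨b', a', hcop, Or.inr ⟨hP, ha'0, mul_left_cancel₀ hgt ?_⟩⟩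
  calc aeval t g * (xc P * aeval t a') = xc P * aeval t (g * a') := by rw [map_mul]; ring
    _ = aeval t g * aeval t b' := by rw [← ha', h, ← map_mul, ← hb']

/-- from any fraction to a coprime representation (divide by the gcd) -/
theorem hasRep_of_eq (htr : Transcendental k t) {P : (W⁄K).toAffine.Point} {b a : k[X]}
    (ha : a ≠ 0) (h : xc P * aeval t a = aeval t b) : HasRep t P :=
  hasRep_of_eq' (aeval_ne_zero_of_transcendental htr ha) h

/-- a point of height zero has a constant `x`-coordinate -/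
theorem isAlgebraic_of_ht_eq_zero (htr : Transcendental k t) {P : (W⁄K).toAffine.Point}
    (hP : HasRep t P) (h0 : ht t P = 0) : P = 0 ∨ ∃ c : k, xc P = algebraMap k K c := by
  obtain ⟨b, a, h⟩ := hP
  rw [ht_eq htr h, pdeg] at h0
  have hb : b.natDegree = 0 := by omega
  have ha : a.natDegree = 0 := by omega
  rcases h.2 with ⟨hP0, _⟩ | ⟨_, ha0, hx⟩
  · exact Or.inl hP0
  · right
    rw [eq_C_of_natDegree_eq_zero hb, eq_C_of_natDegree_eq_zero ha, aeval_C, aeval_C] at hx
    have hc : a.coeff 0 ≠ 0 := fun hc => ha0 (by rw [eq_C_of_natDegree_eq_zero ha, hc, C_0])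
    have hc' : algebraMap k K (a.coeff 0) ≠ 0 := by
      rwa [Ne, map_eq_zero_iff _ (algebraMap k K).injective]
    refine ⟨b.coeff 0 / a.coeff 0, ?_⟩
    rw [map_div₀, eq_div_iff hc', hx]

/-- a point of nonzero height is not algebraic.  (If `x = b(t)/a(t)` is algebraic over `k` then
`t` is algebraic over `k(x)`, being a root of `b - x a ≠ 0`, hence over `k`.) -/
theorem transcendental_xc_of_ht_ne_zero (htr : Transcendental k t) {P : (W⁄K).toAffine.Point}
    (hP : HasRep t P) (h0 : ht t P ≠ 0) : P ≠ 0 ∧ Transcendental k (xc P) := by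
  have hP0 : P ≠ 0 := fun h => h0 (by rw [h, ht_zero htr])
  refine ⟨hP0, fun halg => ?_⟩
  obtain ⟨b, a, h⟩ := hP
  rw [ht_eq htr h] at h0
  rcases h.2 with ⟨hP0', _⟩ | ⟨_, ha0, hx⟩
  · exact hP0 hP0'
  let L : IntermediateField k K := algebraicClosure k K
  have hxL : xc P ∈ L := (mem_algebraicClosure_iff).2 halg
  let x : L := ⟨xc P, hxL⟩
  let q : L[X] := b.map (algebraMap k L) - C x * a.map (algebraMap k L)
  have hq0 : q ≠ 0 := by
    intro hq
    have hb : b.map (algebraMap k L) = C x * a.map (algebraMap k L) := sub_eq_zero.1 hq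
    obtain ⟨u, v, huv⟩ := h.1
    have h1 : a.map (algebraMap k L) * (u.map (algebraMap k L) * C x + v.map (algebraMap k L))
        = 1 := by
      have := congrArg (Polynomial.map (algebraMap k L)) huv
      rw [Polynomial.map_add, Polynomial.map_mul, Polynomial.map_mul, hb, Polynomial.map_one]
        at this
      rw [← this]; ring
    have hau : IsUnit (a.map (algebraMap k L)) := IsUnit.of_mul_eq_one _ h1
    have hda : (a.map (algebraMap k L)).natDegree = 0 := natDegree_eq_zero_of_isUnit hau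
    have hdb : (b.map (algebraMap k L)).natDegree = 0 := by
      rw [hb]
      exact Nat.le_zero.1 ((natDegree_C_mul_le _ _).trans hda.le)
    rw [natDegree_map] at hda hdb
    exact h0 (by rw [pdeg, hda, hdb]; rfl)
  have hroot : aeval t q = 0 := by
    simp only [q, map_sub, map_mul, aeval_C, aeval_map_algebraMap]
    rw [← hx]
    exact sub_self _
  have halgL : IsAlgebraic L t := ⟨q, hq0, hroot⟩
  exact htr (halgL.restrictScalars k)

/-- a representation gives projective coordinates -/
theorem Rep.pX (htr : Transcendental k t) {P : (W⁄K).toAffine.Point} {b a : k[X]}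
    (h : Rep t P b a) : PX P (aeval t b) (aeval t a) := by
  rcases h.2 with ⟨hP0, ha⟩ | ⟨hP0, ha, hx⟩
  · refine Or.inl ⟨hP0, by rw [ha, map_zero], aeval_ne_zero_of_transcendental htr ?_⟩
    intro hb
    have := h.1
    rw [hb, ha] at this
    exact not_isCoprime_zero_zero this
  · exact Or.inr ⟨hP0, aeval_ne_zero_of_transcendental htr ha, hx⟩

theorem aeval_F0 (s u v : k[X]) :
    aeval t (F0 (W.map C) s u v) = F0 (W⁄K) (aeval t s) (aeval t u) (aeval t v) := by
  simp only [F0, map_sub, map_mul, map_pow, WeierstrassCurve.map_b₄, WeierstrassCurve.map_b₆,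
    WeierstrassCurve.map_b₈, aeval_C, WeierstrassCurve.baseChange]

theorem aeval_F1 (s u v : k[X]) :
    aeval t (F1 (W.map C) s u v) = F1 (W⁄K) (aeval t s) (aeval t u) (aeval t v) := by
  simp only [F1, map_add, map_mul, map_pow, WeierstrassCurve.map_b₂, WeierstrassCurve.map_b₄,
    WeierstrassCurve.map_b₆, aeval_C, WeierstrassCurve.baseChange, map_ofNat]

theorem aeval_F2 (s u v : k[X]) :
    aeval t (F2 s u v) = F2 (aeval t s) (aeval t u) (aeval t v) := by
  simp only [F2, map_sub, map_mul, map_pow, map_ofNat]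

variable [DecidableEq K]

/-- **The parallelogram law**: `proj_add_sub` for the `aeval t` of the four representations, pulled
back to `k[X]` by injectivity of `aeval t`, then `pdeg_add_sub`. -/
theorem ht_parallelogram (htr : Transcendental k t) (hΔ : W.Δ ≠ 0) {P Q : (W⁄K).toAffine.Point}
    (hP : HasRep t P) (hQ : HasRep t Q) (hs : HasRep t (P + Q)) (hd : HasRep t (P - Q)) :
    ht t (P + Q) + ht t (P - Q) = 2 * ht t P + 2 * ht t Q := by
  obtain ⟨b₁, a₁, h₁⟩ := hP
  obtain ⟨b₂, a₂, h₂⟩ := hQ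
  obtain ⟨b₃, a₃, h₃⟩ := hs
  obtain ⟨b₄, a₄, h₄⟩ := hd
  rw [ht_eq htr h₁, ht_eq htr h₂, ht_eq htr h₃, ht_eq htr h₄]
  obtain ⟨e01, e02, e12⟩ := proj_add_sub (h₁.pX htr) (h₂.pX htr) (h₃.pX htr) (h₄.pX htr)
  have hinj := aeval_injective_of_transcendental htr
  refine pdeg_add_sub W hΔ h₁.1 h₂.1 h₃.1 h₄.1 (hinj ?_) (hinj ?_) (hinj ?_)
  · simpa only [map_mul, map_add, aeval_F0, aeval_F1, aeval_F2] using e01
  · simpa only [map_mul, map_add, aeval_F0, aeval_F1, aeval_F2] using e02
  · simpa only [map_mul, map_add, aeval_F0, aeval_F1, aeval_F2] using e12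

end

end Fermat.Agent.ECF
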