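import Fermat.Agent.ECF.Height

/-! # The addition-subtraction map in projective `x`-coordinates (WP ECF-Proj)

Any field `F`, any Weierstrass curve. No polynomials here. -/

set_option autoImplicit false

namespace Fermat.Agent.ECF

open WeierstrassCurve WeierstrassCurve.Affine
open Fermat.Agent.S05 (xc yc)

noncomputable section

variable {F : Type*} [Field F] {W : WeierstrassCurve F}

/-- `(B : A)` are projective `x`-coordinates of `P` -/
def PX (P : W.toAffine.Point) (B A : F) : Prop :=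
  (P = 0 ∧ A = 0 ∧ B ≠ 0) ∨ (P ≠ 0 ∧ A ≠ 0 ∧ xc P * A = B)

theorem PX.eq_zero {P : W.toAffine.Point} {B A : F} (h : PX P B A) (hP : P = 0) : A = 0 := by
  rcases h with ⟨-, h, -⟩ | ⟨h, -, -⟩
  · exact h
  · exact absurd hP h

theorem PX.eq_mul {P : W.toAffine.Point} {B A : F} (h : PX P B A) (hP : P ≠ 0) :
    B = xc P * A := by
  rcases h with ⟨h, -, -⟩ | ⟨-, -, h⟩
  · exact absurd h hP
  · exact h.symm

variable [DecidableEq F]

/-- (ECF-Proj) **`(x(P+Q) x(P-Q) : x(P+Q) + x(P-Q) : 1) = F (x(P) x(Q) : x(P) + x(Q) : 1)`** for all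
`P`, `Q`, in projective coordinates.  Cases: `P = 0`; `Q = 0`; `x(P) ≠ x(Q)`:
`S05.xc_add_mul_xc_sub`, `S05.xc_add_add_xc_sub` (then `P ± Q ≠ 0`); `P = Q` / `P = -Q`
(`S05.xc_eq_iff`): one of `P ± Q` is `0`, the other is `± 2 P`: `S05.xc_dbl`,
`S05.add_self_eq_zero_iff`, `S05.psi2_sq`, `S05.xc_neg`. -/
theorem proj_add_sub {P Q : W.toAffine.Point} {B₁ A₁ B₂ A₂ B₃ A₃ B₄ A₄ : F}
    (h₁ : PX P B₁ A₁) (h₂ : PX Q B₂ A₂) (h₃ : PX (P + Q) B₃ A₃) (h₄ : PX (P - Q) B₄ A₄) :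
    (B₃ * B₄) * F1 W (B₁ * B₂) (B₁ * A₂ + A₁ * B₂) (A₁ * A₂) =
      (B₃ * A₄ + A₃ * B₄) * F0 W (B₁ * B₂) (B₁ * A₂ + A₁ * B₂) (A₁ * A₂) ∧
    (B₃ * B₄) * F2 (B₁ * B₂) (B₁ * A₂ + A₁ * B₂) (A₁ * A₂) =
      (A₃ * A₄) * F0 W (B₁ * B₂) (B₁ * A₂ + A₁ * B₂) (A₁ * A₂) ∧
    (B₃ * A₄ + A₃ * B₄) * F2 (B₁ * B₂) (B₁ * A₂ + A₁ * B₂) (A₁ * A₂) =
      (A₃ * A₄) * F1 W (B₁ * B₂) (B₁ * A₂ + A₁ * B₂) (A₁ * A₂) := by
  simp only [F0, F1, F2]
  by_cases hP : P = 0
  · -- `P = 0`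
    have e1 := h₁.eq_zero hP
    subst hP
    rw [zero_add] at h₃
    rw [zero_sub] at h₄
    subst e1
    by_cases hQ : Q = 0
    · have e2 := h₂.eq_zero hQ
      have e3 := h₃.eq_zero hQ
      have e4 := h₄.eq_zero (by rw [hQ, neg_zero])
      subst e2 e3 e4
      refine ⟨by ring, by ring, by ring⟩
    · have e2 := h₂.eq_mul hQ
      have e3 := h₃.eq_mul hQ
      have e4 := h₄.eq_mul (neg_ne_zero.mpr hQ)
      rw [S05.xc_neg] at e4
      subst e2 e3 e4
      refine ⟨by ring, by ring, by ring⟩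
  by_cases hQ : Q = 0
  · -- `Q = 0`
    have e2 := h₂.eq_zero hQ
    subst hQ
    rw [add_zero] at h₃
    rw [sub_zero] at h₄
    have e1 := h₁.eq_mul hP
    have e3 := h₃.eq_mul hP
    have e4 := h₄.eq_mul hP
    subst e1 e2 e3 e4
    refine ⟨by ring, by ring, by ring⟩
  have e1 := h₁.eq_mul hP
  have e2 := h₂.eq_mul hQ
  by_cases hx : xc P = xc Q
  · rcases (S05.xc_eq_iff hP hQ).mp hx with hPQ | hPQ
    · -- `P = Q`
      subst hPQ
      have e4 := h₄.eq_zero (sub_self P)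
      subst e1 e2 e4
      by_cases h2 : P + P = 0
      · have e3 := h₃.eq_zero h2
        have hy := (S05.add_self_eq_zero_iff hP).mp h2
        have hpsi := S05.psi2_sq hP
        rw [hy] at hpsi
        subst e3
        refine ⟨?_, by ring, by ring⟩
        linear_combination (-(B₃ * B₄ * (A₁ * A₂) ^ 2)) * hpsi
      · have e3 := h₃.eq_mul h2
        have hd := S05.xc_dbl hP h2
        subst e3
        refine ⟨?_, by ring, by ring⟩
        linear_combination (A₃ * B₄ * (A₁ * A₂) ^ 2) * hd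
    · -- `P = -Q`
      have hQP : Q = -P := by rw [hPQ, neg_neg]
      subst hQP
      have e3 := h₃.eq_zero (add_neg_cancel P)
      rw [sub_neg_eq_add] at h₄
      rw [S05.xc_neg] at e2
      subst e1 e2 e3
      by_cases h2 : P + P = 0
      · have e4 := h₄.eq_zero h2
        have hy := (S05.add_self_eq_zero_iff hP).mp h2
        have hpsi := S05.psi2_sq hP
        rw [hy] at hpsi
        subst e4
        refine ⟨?_, by ring, by ring⟩
        linear_combination (-(B₃ * B₄ * (A₁ * A₂) ^ 2)) * hpsi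
      · have e4 := h₄.eq_mul h2
        have hd := S05.xc_dbl hP h2
        subst e4
        refine ⟨?_, by ring, by ring⟩
        linear_combination (B₃ * A₄ * (A₁ * A₂) ^ 2) * hd
  · -- generic case
    have hadd : P + Q ≠ 0 := by
      intro h
      apply hx
      rw [eq_neg_of_add_eq_zero_left h, S05.xc_neg]
    have hsub : P - Q ≠ 0 := by
      intro h
      apply hx
      rw [sub_eq_zero.mp h]
    have e3 := h₃.eq_mul hadd
    have e4 := h₄.eq_mul hsub
    have hm := S05.xc_add_mul_xc_sub hP hQ hx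
    have ha := S05.xc_add_add_xc_sub hP hQ hx
    subst e1 e2 e3 e4
    refine ⟨?_, ?_, ?_⟩
    · linear_combination (A₃ * A₄ * (A₁ * A₂) ^ 2) *
        ((xc (P + Q) + xc (P - Q)) * hm - (xc (P + Q) * xc (P - Q)) * ha)
    · linear_combination (A₃ * A₄ * (A₁ * A₂) ^ 2) * hm
    · linear_combination (A₃ * A₄ * (A₁ * A₂) ^ 2) * ha

end

end Fermat.Agent.ECF
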