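import Mathlib

/-! # Abstract algebra: the parallelogram law and the quadratic relation of Frobenius -/

set_option autoImplicit false

namespace Fermat.Agent.ECF

variable {Γ : Type*} [AddCommGroup Γ] (h : Γ → ℤ)

section
variable (par : ∀ x y, h (x + y) + h (x - y) = 2 * h x + 2 * h y)
include par

theorem par_zero : h 0 = 0 := by
  have := par 0 0
  simp at this
  omega

theorem par_neg (x : Γ) : h (-x) = h x := by
  have h1 := par 0 x
  have h0 := par_zero h par
  simp only [zero_add, zero_sub, h0] at h1
  omega

theorem par_cube (x y z : Γ) :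
    h (x + y + z) = h (x + y) + h (y + z) + h (x + z) - h x - h y - h z := by
  have hA := par (x + z) y
  have hB := par (x - y) z
  have hC := par x (y + z)
  have hD := par x y
  rw [show x + z + y = x + y + z by abel, show x + z - y = x - y + z by abel] at hA
  rw [show x + (y + z) = x + y + z by abel, show x - (y + z) = x - y - z by abel] at hC
  omega

/-- the polar form, as a biadditive map -/
def polar (x : Γ) : Γ →+ ℤ where
  toFun y := h (x + y) - h x - h y
  map_zero' := by simp [par_zero h par]
  map_add' y z := by
    have := par_cube h par x y z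
    rw [← add_assoc, this, add_comm x z]
    have h2 : h (z + x) = h (x + z) := by rw [add_comm]
    rw [h2]
    ring

theorem polar_apply (x y : Γ) : polar h par x y = h (x + y) - h x - h y := rfl

theorem polar_comm (x y : Γ) : polar h par x y = polar h par y x := by
  rw [polar_apply, polar_apply, add_comm x y]; ring

theorem polar_self (x : Γ) : polar h par x x = 2 * h x := by
  have := par x x
  rw [sub_self, par_zero h par] at this
  rw [polar_apply]
  omega

theorem h_add (x y : Γ) : h (x + y) = h x + h y + polar h par x y := by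
  rw [polar_apply]; ring

theorem polar_add_left (x x' y : Γ) :
    polar h par (x + x') y = polar h par x y + polar h par x' y := by
  rw [polar_comm, map_add, polar_comm h par y x, polar_comm h par y x']

theorem polar_zsmul_left (n : ℤ) (x y : Γ) : polar h par (n • x) y = n * polar h par x y := by
  rw [polar_comm, map_zsmul, polar_comm h par y x, smul_eq_mul]

theorem polar_zsmul_right (n : ℤ) (x y : Γ) : polar h par x (n • y) = n * polar h par x y := by
  rw [map_zsmul, smul_eq_mul]

theorem h_zsmul (n : ℤ) (x : Γ) : h (n • x) = n ^ 2 * h x := by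
  have h1 : polar h par (n • x) (n • x) = n * (n * polar h par x x) := by
    rw [polar_zsmul_left, polar_zsmul_right]
  rw [polar_self, polar_self] at h1
  have : 2 * h (n • x) = 2 * (n ^ 2 * h x) := by rw [h1]; ring
  omega

theorem h_sub (x y : Γ) : h (x - y) = h x + h y - polar h par x y := by
  have := par x y
  rw [h_add h par] at this
  omega

/-- **The quadratic relation.** -/
theorem quad_relation (Φ : Γ →+ Γ) (q : ℤ) (hΦ : ∀ x, h (Φ x) = q * h x) (g : Γ) (hg : h g = 1)
    (a : ℤ) (ha : h (Φ g - g) = q + 1 - a)
    (hmul : h (Φ (Φ g) - g) = h (Φ g - g) * h (Φ g + g)) :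
    h (Φ (Φ g) - a • Φ g + q • g) = 0 := by
  set B := polar h par with hB
  have h1 : h (Φ g) = q := by rw [hΦ, hg, mul_one]
  have h2 : h (Φ (Φ g)) = q ^ 2 := by rw [hΦ, h1]; ring
  -- `B (Φ g) g = a`
  have hB1 : B (Φ g) g = a := by
    have := h_sub h par (Φ g) g
    rw [ha, h1, hg] at this
    rw [hB]; omega
  have hplus : h (Φ g + g) = q + 1 + a := by
    rw [h_add h par, h1, hg, ← hB, hB1]
  -- `B (Φ² g) g = a ^ 2 - 2 q`
  have hB2 : B (Φ (Φ g)) g = a ^ 2 - 2 * q := by
    have := h_sub h par (Φ (Φ g)) g
    rw [hmul, ha, hplus, h2, hg] at this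
    rw [hB]
    linarith
  -- `B (Φ² g) (Φ g) = q a`
  have hB3 : B (Φ (Φ g)) (Φ g) = q * a := by
    rw [hB, polar_apply, ← map_add, hΦ, hplus, h2, h1]
    ring
  rw [sub_eq_add_neg, ← neg_smul, h_add h par, h_add h par, h_zsmul h par, h_zsmul h par,
    polar_add_left, polar_zsmul_right, polar_zsmul_right, polar_zsmul_left, polar_zsmul_right,
    ← hB, hB1, hB2, hB3, h1, h2, hg]
  ring

end

end Fermat.Agent.ECF
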